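import Mathlib
import Fermat.Agent.LT.T7.Matching
import Fermat.Agent.LT.T1.Closed
import Fermat.Agent.LT.T5.H62.FrameExists
import Fermat.Agent.LT.T1.H930.AdeleAutAll

/-!
# Row LT, tower T7, asset T7.M0 (helper930): the data of the comparison EXIST

OFF-MAIN.  Vocabulary: `T7/Matching.lean` (helper797, sha256 0549163e), byte-identical copy.

For a Galois extension `K'/K` of number fields of prime degree `ℓ` (`T7.IsCycExt K K' ℓ`) and a
level `𝔫 ≠ 0` of `K` there is a `D : T7.CompData K K'` with `T7.IsCompData D`, `D.l = ℓ`,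
`D.𝔫 = 𝔫`, whose automorphism `D.s.σ` is a generator of `Gal(K'/K)` (it fixes `K`).
UNCONDITIONAL.

Pieces: a generator `σ` of the Galois group (prime order), its adelic extension
`adelicAut930 σ` (`T1/H930/AdeleAutT5.lean`), the `σ`-stable level `𝔑 = 𝔫 𝒪_{K'}`, the frames of
helper62 (`T5/H62/FrameExists.lean`) on the closed tower T1 (helper54, `T1/Closed.lean`), and
`autPreserves_all930` (`T1/H930/AdeleAutAll.lean`) for the field `aut`.
-/

set_option autoImplicit false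

open IsDedekindDomain NumberField MeasureTheory

noncomputable section

namespace Fermat.Agent.LT.T7.H930

open Fermat.Agent.LT.H556 Fermat.Agent.LT.H556.A0 Fermat.Agent.LT.T1.H930

attribute [local instance] Fermat.Agent.LT.T5.instMeasurableSpaceG

/-! ## 1. The generator of the Galois group -/

/-- `AlgEquiv.toRingEquiv` as a monoid homomorphism into `RingAut`. -/
def toRingAutHom930 (K K' : Type*) [Field K] [Field K'] [Algebra K K'] :
    (K' ≃ₐ[K] K') →* RingAut K' where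
  toFun σ := σ.toRingEquiv
  map_one' := rfl
  map_mul' _ _ := rfl

theorem toRingEquiv_pow930 {K K' : Type*} [Field K] [Field K'] [Algebra K K']
    (σ : K' ≃ₐ[K] K') (n : ℕ) (x : K') :
    ((σ.toRingEquiv : RingAut K') ^ n) x = (σ ^ n) x := by
  have h := map_pow (toRingAutHom930 K K') σ n
  exact (congrArg (fun f : RingAut K' => f x) h).symm

/-- A Galois extension of prime degree has a generator `σ` of its Galois group: `σ^ℓ = 1`,
the fixed field of `σ` is the base field, and `σ^j ≠ 1` for `0 < j < ℓ`. -/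
theorem exists_generator930 (K K' : Type*) [Field K] [Field K'] [Algebra K K']
    [FiniteDimensional K K'] [IsGalois K K'] (ℓ : ℕ) (hℓ : ℓ.Prime)
    (hdeg : Module.finrank K K' = ℓ) :
    ∃ σ : K' ≃ₐ[K] K', (∀ x : K', (σ ^ ℓ) x = x) ∧
      (∀ x : K', (∃ y : K, algebraMap K K' y = x) ↔ σ x = x) ∧
      (∀ j : ℕ, 0 < j → j < ℓ → ∃ x : K', (σ ^ j) x ≠ x) := by
  have hcard : Nat.card (K' ≃ₐ[K] K') = ℓ := by
    rw [IsGalois.card_aut_eq_finrank, hdeg]
  have : Fact ℓ.Prime := ⟨hℓ⟩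
  have : Finite (K' ≃ₐ[K] K') := Nat.finite_of_card_ne_zero (by rw [hcard]; exact hℓ.ne_zero)
  have hnt : Nontrivial (K' ≃ₐ[K] K') := by
    rw [← Finite.one_lt_card_iff_nontrivial, hcard]
    exact hℓ.one_lt
  obtain ⟨σ, hσ⟩ := exists_ne (1 : K' ≃ₐ[K] K')
  have htop : Subgroup.zpowers σ = ⊤ := zpowers_eq_top_of_prime_card hcard hσ
  have hord : orderOf σ = ℓ := by
    rw [← Nat.card_zpowers, htop, Subgroup.card_top, hcard]
  refine ⟨σ, ?_, ?_, ?_⟩
  · intro x
    have h1 : σ ^ ℓ = 1 := by rw [← hord]; exact pow_orderOf_eq_one σ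
    rw [h1]
    rfl
  · intro x
    constructor
    · rintro ⟨y, rfl⟩
      exact σ.commutes y
    · intro hx
      have hall : ∀ f : K' ≃ₐ[K] K', f x = x := by
        intro f
        have hf : f ∈ Subgroup.zpowers σ := by rw [htop]; exact Subgroup.mem_top f
        obtain ⟨n, rfl⟩ := Subgroup.mem_zpowers_iff.1 hf
        have hfix : σ ∈ MulAction.stabilizer (K' ≃ₐ[K] K') x := hx
        exact (Subgroup.zpow_mem _ hfix n)
      exact (IsGalois.mem_range_algebraMap_iff_fixed (F := K) (E := K') x).2 hall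
  · intro j hj0 hjl
    by_contra hcon
    have hcon' : ∀ x : K', (σ ^ j) x = x := by
      intro x
      by_contra hx
      exact hcon ⟨x, hx⟩
    have h1 : σ ^ j = 1 := AlgEquiv.ext hcon'
    exact pow_ne_one_of_lt_orderOf hj0.ne' (by rw [hord]; exact hjl) h1

/-! ## 2. The level upstairs -/

section Level

variable {K K' : Type} [Field K] [NumberField K] [Field K'] [NumberField K'] [Algebra K K']

omit [NumberField K] [NumberField K'] in
/-- The level `𝔫 𝒪_{K'}` is stable under every `K`-automorphism of `K'`. -/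
theorem map_level_stable930 (σ : K' ≃ₐ[K] K') (𝔫 : Ideal (𝓞 K)) :
    (Ideal.map (algebraMap (𝓞 K) (𝓞 K')) 𝔫).map (RingOfIntegers.mapRingEquiv σ.toRingEquiv)
      = Ideal.map (algebraMap (𝓞 K) (𝓞 K')) 𝔫 := by
  have h : ((RingOfIntegers.mapRingEquiv σ.toRingEquiv : 𝓞 K' →+* 𝓞 K')).comp
      (algebraMap (𝓞 K) (𝓞 K')) = algebraMap (𝓞 K) (𝓞 K') := by
    ext x
    show (σ ((algebraMap (𝓞 K) (𝓞 K') x : 𝓞 K') : K') : K') = _
    have h1 : ((algebraMap (𝓞 K) (𝓞 K') x : 𝓞 K') : K') = algebraMap K K' (x : K) := rfl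
    rw [h1]
    exact σ.commutes _
  have h2 := Ideal.map_map (I := 𝔫) (algebraMap (𝓞 K) (𝓞 K'))
    (RingOfIntegers.mapRingEquiv σ.toRingEquiv : 𝓞 K' →+* 𝓞 K')
  rw [h] at h2
  exact h2

end Level

/-! ## 3. The data -/

section Data

variable (K K' : Type) [Field K] [NumberField K] [Field K'] [NumberField K'] [Algebra K K']

/-- **The data of the comparison exist** for every Galois extension of prime degree and every
level `𝔫 ≠ 0`; the automorphism is `adelicAut930 σ` for a generator `σ` of `Gal(K'/K)`. -/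
theorem exists_compData_gen930 (ℓ : ℕ) (h : IsCycExt K K' ℓ) (𝔫 : Ideal (𝓞 K)) (h𝔫 : 𝔫 ≠ ⊥) :
    ∃ (σ : K' ≃ₐ[K] K') (D : CompData K K'), IsCompData D ∧ D.l = ℓ ∧ D.𝔫 = 𝔫 ∧
      D.s = adelicAut930 σ.toRingEquiv ∧ D.k = (algebraMap K K').fieldRange := by
  have := h.galois
  obtain ⟨σ, hpow, hfix, hfaith⟩ := exists_generator930 K K' ℓ h.prime h.degree
  obtain ⟨μ, F, r, hF, hr, -⟩ :=
    Fermat.Agent.LT.T5.H62.frame_exists_of_T1Out62 K 𝔫 (Fermat.Agent.LT.T1.t1Out K)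
  set 𝔑 : Ideal (𝓞 K') := Ideal.map (algebraMap (𝓞 K) (𝓞 K')) 𝔫 with h𝔑
  obtain ⟨μ', F', r', hF', hr', -⟩ :=
    Fermat.Agent.LT.T5.H62.frame_exists_of_T1Out62 K' 𝔑 (Fermat.Agent.LT.T1.t1Out K')
  have hLC : LocallyCompactSpace (G K') := (Fermat.Agent.LT.T1.t1Out K').locComp.2.1
  have hSC : SecondCountableTopology (G K') := (Fermat.Agent.LT.T1.t1Out K').locComp.2.2.2
  refine ⟨σ, ⟨ℓ, adelicAut930 σ.toRingEquiv, (algebraMap K K').fieldRange, 𝔫, 𝔑,
    ⟨μ, F, r⟩, ⟨μ', F', r'⟩⟩, ?_, rfl, rfl, rfl, rfl⟩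
  refine ⟨⟨h.prime.pos, ?_, ?_, ?_⟩, ?_, h𝔫, rfl, ⟨hF, hr⟩, ⟨hF', hr'⟩, ?_⟩
  · intro x
    show ((σ.toRingEquiv : RingAut K') ^ ℓ) x = x
    rw [toRingEquiv_pow930]
    exact hpow x
  · intro x
    show x ∈ (algebraMap K K').fieldRange ↔ σ x = x
    rw [RingHom.mem_fieldRange]
    exact hfix x
  · intro j hj0 hjl
    obtain ⟨x, hx⟩ := hfaith j hj0 hjl
    refine ⟨x, ?_⟩
    show ((σ.toRingEquiv : RingAut K') ^ j) x ≠ x
    rw [toRingEquiv_pow930]
    exact hx
  · intro x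
    show x ∈ (algebraMap K K').fieldRange ↔ _
    exact RingHom.mem_fieldRange
  · exact autPreserves_all930 hLC hSC (adelicAut930 σ.toRingEquiv) 𝔑
      (map_level_stable930 σ 𝔫) μ' hF'.haar r' hr'

/-- **T7.M0: the data of the comparison exist.** -/
theorem exists_compData930 (ℓ : ℕ) (h : IsCycExt K K' ℓ) (𝔫 : Ideal (𝓞 K)) (h𝔫 : 𝔫 ≠ ⊥) :
    ∃ D : CompData K K', IsCompData D ∧ D.l = ℓ ∧ D.𝔫 = 𝔫 ∧
      ∀ x : K, D.s.σ (algebraMap K K' x) = algebraMap K K' x := by
  obtain ⟨σ, D, hD, hl, hn, hs, -⟩ := exists_compData_gen930 K K' ℓ h 𝔫 h𝔫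
  refine ⟨D, hD, hl, hn, ?_⟩
  intro x
  rw [hs]
  exact σ.commutes x

end Data

end Fermat.Agent.LT.T7.H930
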