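import Mathlib
import Fermat.Agent.LT.T2.Spec
import Fermat.Agent.LT.T1.Closed
import Fermat.Agent.LT.T5.H62.FrameExists
import Fermat.Agent.LT.T7.H621.ConjMean
import Fermat.Agent.LT.T1.H930.RsigOrder

/-!
# Row LT, asset T7.M1 (helper930): `R(σ)` and the operators / eigenbases of tower T2

OFF-MAIN.  Vocabulary: `T2/Spec.lean` v3 (helper130), `T5/Spec.lean` v4 (helper32), A0;
byte-identical copies.  Uses the closed tower T1 (helper54), the frame adapter of helper62 and
the matrix lemmas of helper621 (`T7/H621/ConjMean.lean`).  UNCONDITIONAL, for EVERY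
`s : T5.AdelicAut K`.

## Two fields (`e : K ≃+* L`, transport `φ ↦ φ ∘ glAdeleEquiv930 e`)

* `isSphereAt_map930`, `isCircleAt_map930` : images of spheres / circles (`α ↦ ± α`);
* `sphereMean_comp_glAdeleEquiv930`, `circleMean_comp_glAdeleEquiv930` : the means commute with
  the transport (sphere means: on right `K_w`-invariant functions);
* `meanEigC_comp_glAdeleEquiv930`, `meanEigR_comp_glAdeleEquiv930` : transport of the
  eigenfunctions of the means, ANY eigenvalue function `m`;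
* `isCuspidalFn_comp_glAdeleEquiv930`, `isCuspFnT2_comp_glAdeleEquiv930` : transport of
  `A0.IsCuspidalFn` and of `T2.IsCuspFn`.

## One field (`R(σ) = T5.Rsig s`)

* `Rsig_heckeSum930`, `Rsig_shift930` : `R(σ) T_H = T_{σH} R(σ)`, `R(σ) S_z = S_{σz} R(σ)`;
  `isHeckeCosetSystem_onG930`, `isScalarUniformizerAt_onG930`;
* `isCuspFnT2_Rsig930` : `R(σ)` preserves `T2.IsCuspFn 𝔫` for a `σ`-stable level;
* `meanEigC_Rsig930`, `meanEigR_Rsig930` : `R(σ)` moves the eigenvalue functions to `σ(w)`;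
* `pair_Rsig930` : `R(σ)` is unitary for `T2.pair F`, EVERY frame `F` of T2;
* **`isCuspBasis_Rsig930`** : if `u` is a joint eigenbasis (`T2.IsCuspBasis 𝔫 F u m a b`) then so
  is `R(σ) ∘ u`, with the eigen-data `m j ∘ σ⁻¹`, `a j ∘ σ⁻¹`, `b j ∘ σ⁻¹`.
-/

set_option autoImplicit false

open IsDedekindDomain NumberField MeasureTheory
open scoped MatrixGroups ComplexConjugate

noncomputable section

namespace Fermat.Agent.LT.T7.H930

open Fermat.Agent.LT.H556 Fermat.Agent.LT.H556.A0 Fermat.Agent.LT.T1.H930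
open Fermat.Agent.LT.T7.H621

section TwoFields

variable {K L : Type} [Field K] [NumberField K] [Field L] [NumberField L]

/-! ## 1. Spheres and circles under a field isomorphism -/

omit [NumberField K] [NumberField L] in
theorem map_infConj930_mul (e : K ≃+* L) (w : InfinitePlace L)
    (A B : Matrix (Fin 2) (Fin 2) ℂ) :
    (A * B).map (infConj930 e w) = A.map (infConj930 e w) * B.map (infConj930 e w) := by
  rw [← RingHom.mapMatrix_apply, ← RingHom.mapMatrix_apply, ← RingHom.mapMatrix_apply, map_mul]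

omit [NumberField K] [NumberField L] in
theorem rotY_map_infConj930 (e : K ≃+* L) (w : InfinitePlace L) (β : ℝ) :
    (rotY β).map (infConj930 e w) = rotY β := by
  rcases infConj930_eq e w with h | h
  · rw [h]; exact Matrix.map_id _
  · rw [h]; exact rotY_map_conj621 β

omit [NumberField K] [NumberField L] in
theorem torus_map_infConj930 (e : K ≃+* L) (w : InfinitePlace L) (d : ℝ) :
    (torus d).map (infConj930 e w) = torus d := by
  rcases infConj930_eq e w with h | h
  · rw [h]; exact Matrix.map_id _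
  · rw [h]; exact torus_map_conj621 d

/-- The sign of the angle `α` under the transport. -/
def sgn930 (e : K ≃+* L) (w : InfinitePlace L) : ℝ :=
  open scoped Classical in
  if infConj930 e w = RingHom.id ℂ then 1 else -1

omit [NumberField K] [NumberField L] in
theorem rotZ_map_infConj930 (e : K ≃+* L) (w : InfinitePlace L) (α : ℝ) :
    (rotZ α).map (infConj930 e w) = rotZ (sgn930 e w * α) := by
  unfold sgn930
  split_ifs with h
  · rw [h, one_mul]; exact Matrix.map_id _
  · rcases infConj930_eq e w with h' | h'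
    · exact absurd h' h
    · rw [h', neg_one_mul]; exact rotZ_map_conj621 α

omit [NumberField K] [NumberField L] in
theorem sgn930_mul_self (e : K ≃+* L) (w : InfinitePlace L) : sgn930 e w * sgn930 e w = 1 := by
  unfold sgn930
  split_ifs <;> norm_num

omit [NumberField K] [NumberField L] in
theorem sgn930_eq (e : K ≃+* L) (w : InfinitePlace L) : sgn930 e w = 1 ∨ sgn930 e w = -1 := by
  unfold sgn930
  split_ifs
  · exact Or.inl rfl
  · exact Or.inr rfl

/-- The image of a sphere at `e⁻¹ w` is a sphere at `w` (after `α ↦ ± α`). -/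
theorem isSphereAt_map930 (e : K ≃+* L) (w : InfinitePlace L) (d : ℝ) (Y : ℝ → ℝ → G K)
    (hY : T2.IsSphereAt (infPull930 e w) d Y) :
    T2.IsSphereAt w d (fun α β => glAdeleEquiv930 e (Y (sgn930 e w * α) β)) := by
  intro α β
  refine ⟨(isLocalAtInf_glAdeleEquiv930 e w _).2 (hY _ _).1, ?_⟩
  rw [infComp_glAdeleEquiv930, (hY _ _).2, map_infConj930_mul, map_infConj930_mul,
    rotZ_map_infConj930, rotY_map_infConj930, torus_map_infConj930, ← mul_assoc,
    sgn930_mul_self, one_mul]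

/-- The image of a circle at `e⁻¹ w` is a circle at `w`. -/
theorem isCircleAt_map930 (e : K ≃+* L) (w : InfinitePlace L) (t : ℝ) (Y : ℝ → G K)
    (hY : T2.IsCircleAt (infPull930 e w) t Y) :
    T2.IsCircleAt w t (fun θ => glAdeleEquiv930 e (Y θ)) := by
  intro θ
  refine ⟨(isLocalAtInf_glAdeleEquiv930 e w _).2 (hY _).1, ?_⟩
  rw [infComp_glAdeleEquiv930, (hY _).2, map_infConj930_mul, rotY_map_infConj930,
    torus_map_infConj930]

/-- **Circle means commute with the transport** (real places; no hypothesis). -/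
theorem circleMean_comp_glAdeleEquiv930 (e : K ≃+* L) (φ : G L → ℂ) (Y : ℝ → G K) (g : G K) :
    T2.circleMean Y (fun x => φ (glAdeleEquiv930 e x)) g
      = T2.circleMean (fun θ => glAdeleEquiv930 e (Y θ)) φ (glAdeleEquiv930 e g) := by
  unfold T2.circleMean
  simp only [map_mul]

/-- A sphere is `2π`-antiperiodic in `α` up to the central element `-1` of `K_w`, so the inner
integral of a right `K_w`-invariant function is `2π`-periodic in `α`. -/
theorem sphere_periodic930 (w : InfinitePlace L) (d : ℝ) (Y : ℝ → ℝ → G L)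
    (hY : T2.IsSphereAt w d Y) (φ : G L → ℂ)
    (hinv : ∀ k : G L, IsArchCompact w k → ∀ g : G L, φ (g * k) = φ g) (g : G L) :
    Function.Periodic (fun α => ∫ β in (0 : ℝ)..Real.pi,
      φ (g * Y α β) * ((Real.sin β : ℝ) : ℂ)) (2 * Real.pi) := by
  intro α
  show (∫ β in (0 : ℝ)..Real.pi, φ (g * Y (α + 2 * Real.pi) β) * ((Real.sin β : ℝ) : ℂ))
    = ∫ β in (0 : ℝ)..Real.pi, φ (g * Y α β) * ((Real.sin β : ℝ) : ℂ)
  congr 1
  funext β
  congr 1
  set c : G L := (Y α β)⁻¹ * Y (α + 2 * Real.pi) β with hc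
  have hcloc : IsLocalAtInf w c :=
    isLocalAtInf_mul621 _ _ _ (isLocalAtInf_inv621 _ _ (hY α β).1) (hY (α + 2 * Real.pi) β).1
  have hccomp : infComp w c = -1 := by
    rw [hc, infComp_mul621, (hY (α + 2 * Real.pi) β).2, rotZ_add_two_pi621,
      Matrix.neg_mul, Matrix.neg_mul, Matrix.mul_neg, ← (hY α β).2, infComp_inv_mul621]
  have hYc : Y (α + 2 * Real.pi) β = Y α β * c := by
    rw [hc, mul_inv_cancel_left]
  rw [hYc, ← mul_assoc]
  exact hinv c (isArchCompact_of_neg_one621 _ c hcloc hccomp) _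

/-- **Sphere means commute with the transport** on right `K_w`-invariant functions. -/
theorem sphereMean_comp_glAdeleEquiv930 (e : K ≃+* L) (w : InfinitePlace L) (φ : G L → ℂ)
    (hinv : ∀ k : G L, IsArchCompact w k → ∀ g : G L, φ (g * k) = φ g)
    (d : ℝ) (Y : ℝ → ℝ → G K) (hY : T2.IsSphereAt (infPull930 e w) d Y) (g : G K) :
    T2.sphereMean Y (fun x => φ (glAdeleEquiv930 e x)) g
      = T2.sphereMean (fun α β => glAdeleEquiv930 e (Y (sgn930 e w * α) β)) φ
          (glAdeleEquiv930 e g) := by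
  have hY₁ := isSphereAt_map930 e w d Y hY
  set Y₁ : ℝ → ℝ → G L := fun α β => glAdeleEquiv930 e (Y (sgn930 e w * α) β) with hY₁def
  set F₁ : ℝ → ℂ := fun α => ∫ β in (0 : ℝ)..Real.pi,
    φ (glAdeleEquiv930 e g * Y₁ α β) * ((Real.sin β : ℝ) : ℂ) with hF₁
  have hper : Function.Periodic F₁ (2 * Real.pi) :=
    sphere_periodic930 w d Y₁ hY₁ φ hinv (glAdeleEquiv930 e g)
  have hL : T2.sphereMean Y (fun x => φ (glAdeleEquiv930 e x)) g
      = ∫ α in (0 : ℝ)..(2 * Real.pi), F₁ (sgn930 e w * α) := by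
    unfold T2.sphereMean
    congr 1
    funext α
    rw [hF₁]
    show _ = ∫ β in (0 : ℝ)..Real.pi,
      φ (glAdeleEquiv930 e g * Y₁ (sgn930 e w * α) β) * ((Real.sin β : ℝ) : ℂ)
    rw [hY₁def]
    simp only [map_mul, ← mul_assoc, sgn930_mul_self, one_mul]
  have hR : T2.sphereMean Y₁ φ (glAdeleEquiv930 e g) = ∫ α in (0 : ℝ)..(2 * Real.pi), F₁ α := rfl
  rw [hL, hR]
  rcases sgn930_eq e w with h | h
  · rw [h]
    simp only [one_mul]
  · rw [h]
    simp only [neg_one_mul]
    rw [intervalIntegral.integral_comp_neg]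
    have e2 := hper.intervalIntegral_add_eq (-(2 * Real.pi)) 0
    rw [neg_add_cancel, zero_add] at e2
    rw [neg_zero, e2]

/-! ## 2. Eigenfunctions of the sphere and circle means -/

/-- Right `K_w`-invariance passes to the transported function. -/
theorem archInv_comp_glAdeleEquiv930 (e : K ≃+* L) (w : InfinitePlace L) (φ : G L → ℂ)
    (hinv : ∀ k : G L, IsArchCompact w k → ∀ g : G L, φ (g * k) = φ g) :
    ∀ k : G K, IsArchCompact (infPull930 e w) k →
      ∀ g : G K, (fun x => φ (glAdeleEquiv930 e x)) (g * k) = (fun x => φ (glAdeleEquiv930 e x)) g := by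
  intro k hk g
  show φ (glAdeleEquiv930 e (g * k)) = φ (glAdeleEquiv930 e g)
  rw [map_mul]
  exact hinv _ ((isArchCompact_glAdeleEquiv930 e w k).2 hk) _

theorem meanEigC_comp_glAdeleEquiv930_of (e : K ≃+* L) (w : InfinitePlace L) (φ : G L → ℂ)
    (hinv : ∀ k : G L, IsArchCompact w k → ∀ g : G L, φ (g * k) = φ g) (m : ℝ → ℂ)
    (h : T2.MeanEigC φ w m) :
    T2.MeanEigC (fun x => φ (glAdeleEquiv930 e x)) (infPull930 e w) m := by
  intro d hd Y hY g
  rw [sphereMean_comp_glAdeleEquiv930 e w φ hinv d Y hY g]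
  exact h d hd _ (isSphereAt_map930 e w d Y hY) _

/-- **Transport of the eigenfunctions of the sphere means** (complex places). -/
theorem meanEigC_comp_glAdeleEquiv930 (e : K ≃+* L) (w : InfinitePlace L) (φ : G L → ℂ)
    (hinv : ∀ k : G L, IsArchCompact w k → ∀ g : G L, φ (g * k) = φ g) (m : ℝ → ℂ) :
    T2.MeanEigC (fun x => φ (glAdeleEquiv930 e x)) (infPull930 e w) m ↔ T2.MeanEigC φ w m := by
  refine ⟨fun h => ?_, meanEigC_comp_glAdeleEquiv930_of e w φ hinv m⟩
  have h2 := meanEigC_comp_glAdeleEquiv930_of e.symm (infPull930 e w)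
    (fun x => φ (glAdeleEquiv930 e x)) (archInv_comp_glAdeleEquiv930 e w φ hinv) m h
  rw [infPull930_symm'] at h2
  have e1 : (fun x => (fun y => φ (glAdeleEquiv930 e y)) (glAdeleEquiv930 e.symm x)) = φ := by
    funext x
    show φ (glAdeleEquiv930 e (glAdeleEquiv930 e.symm x)) = φ x
    rw [glAdeleEquiv930_apply_symm_apply]
  rw [e1] at h2
  exact h2

theorem meanEigR_comp_glAdeleEquiv930_of (e : K ≃+* L) (w : InfinitePlace L) (φ : G L → ℂ)
    (m : ℝ → ℂ) (h : T2.MeanEigR φ w m) :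
    T2.MeanEigR (fun x => φ (glAdeleEquiv930 e x)) (infPull930 e w) m := by
  intro t ht Y hY g
  rw [circleMean_comp_glAdeleEquiv930 e φ Y g]
  exact h t ht _ (isCircleAt_map930 e w t Y hY) _

/-- **Transport of the eigenfunctions of the circle means** (real places). -/
theorem meanEigR_comp_glAdeleEquiv930 (e : K ≃+* L) (w : InfinitePlace L) (φ : G L → ℂ)
    (m : ℝ → ℂ) :
    T2.MeanEigR (fun x => φ (glAdeleEquiv930 e x)) (infPull930 e w) m ↔ T2.MeanEigR φ w m := by
  refine ⟨fun h => ?_, meanEigR_comp_glAdeleEquiv930_of e w φ m⟩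
  have h2 := meanEigR_comp_glAdeleEquiv930_of e.symm (infPull930 e w)
    (fun x => φ (glAdeleEquiv930 e x)) m h
  rw [infPull930_symm'] at h2
  have e1 : (fun x => (fun y => φ (glAdeleEquiv930 e y)) (glAdeleEquiv930 e.symm x)) = φ := by
    funext x
    show φ (glAdeleEquiv930 e (glAdeleEquiv930 e.symm x)) = φ x
    rw [glAdeleEquiv930_apply_symm_apply]
  rw [e1] at h2
  exact h2

/-! ## 3. Transport of the vanishing of the constant term (two fields) -/

/-- `adeleEquiv930 e` as a continuous additive equivalence. -/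
def adeleCAE930 (e : K ≃+* L) : A0.Adl K ≃ₜ+ A0.Adl L where
  toAddEquiv := (adeleEquiv930 e).toAddEquiv
  continuous_toFun := continuous_adeleEquiv930 e
  continuous_invFun := continuous_adeleEquiv930 e.symm

theorem adeleCAE930_apply (e : K ≃+* L) (x : A0.Adl K) : adeleCAE930 e x = adeleEquiv930 e x := rfl

theorem adeleCAE930_symm_apply (e : K ≃+* L) (y : A0.Adl L) :
    (adeleCAE930 e).symm y = adeleEquiv930 e.symm y := rfl

/-- The principal adeles. -/
abbrev princ930 (K : Type) [Field K] [NumberField K] : AddSubgroup (A0.Adl K) :=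
  (algebraMap K (A0.Adl K)).toAddMonoidHom.range

/-- `adeleEquiv930 e.symm` maps the principal adeles of `L` onto those of `K`. -/
def princEquiv930 (e : K ≃+* L) : princ930 L ≃ princ930 K where
  toFun y := ⟨adeleEquiv930 e.symm y.1, by
    obtain ⟨k, hk⟩ := y.2
    refine ⟨e.symm k, ?_⟩
    show algebraMap K (A0.Adl K) (e.symm k) = adeleEquiv930 e.symm y.1
    rw [← adeleEquiv930_algebraMap e.symm k]
    exact congrArg _ hk⟩
  invFun x := ⟨adeleEquiv930 e x.1, by
    obtain ⟨k, hk⟩ := x.2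
    refine ⟨e k, ?_⟩
    show algebraMap L (A0.Adl L) (e k) = adeleEquiv930 e x.1
    rw [← adeleEquiv930_algebraMap e k]
    exact congrArg _ hk⟩
  left_inv y := Subtype.ext (adeleEquiv930_apply_symm_apply e y.1)
  right_inv x := Subtype.ext (adeleEquiv930_symm_apply_apply e x.1)

theorem isCuspidalFn_comp_glAdeleEquiv930 (e : K ≃+* L) (φ : A0.G L → ℂ)
    (h : A0.IsCuspidalFn φ) : A0.IsCuspidalFn (fun g => φ (glAdeleEquiv930 e g)) := by
  let _ : MeasurableSpace (A0.Adl K) := borel (A0.Adl K)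
  let _ : MeasurableSpace (A0.Adl L) := borel (A0.Adl L)
  have : BorelSpace (A0.Adl K) := ⟨rfl⟩
  have : BorelSpace (A0.Adl L) := ⟨rfl⟩
  intro μ hμ D hD n hn g
  have := hμ
  set A : A0.Adl K ≃ₜ+ A0.Adl L := adeleCAE930 e with hA
  set Am : A0.Adl K ≃ᵐ A0.Adl L := A.toHomeomorph.toMeasurableEquiv with hAm
  have hAm_apply : ∀ x, Am x = adeleEquiv930 e x := fun _ => rfl
  have hAm_symm : ∀ y, Am.symm y = adeleEquiv930 e.symm y := fun _ => rfl
  set ν : Measure (A0.Adl L) := μ.map Am with hν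
  have hνH : ν.IsAddHaarMeasure := A.isAddHaarMeasure_map μ
  have hmp : MeasurePreserving Am μ ν := Am.measurable.measurePreserving μ
  have hmp' : MeasurePreserving Am.symm ν μ := hmp.symm Am
  have hD' : IsAddFundamentalDomain (princ930 L) (Am '' D) ν := by
    refine hD.image_of_equiv Am.toEquiv hmp'.quasiMeasurePreserving (princEquiv930 e) ?_
    intro y x
    show adeleEquiv930 e ((princEquiv930 e y : A0.Adl K) + x) = (y : A0.Adl L) + adeleEquiv930 e x
    rw [map_add]
    congr 1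
    exact adeleEquiv930_apply_symm_apply e y.1
  set n' : A0.Adl L → A0.G L := fun y => glAdeleEquiv930 e (n (adeleEquiv930 e.symm y)) with hn'
  have hn'1 : ∀ y : A0.Adl L,
      (n' y : Matrix (Fin 2) (Fin 2) (A0.Adl L)) = !![1, y; 0, 1] := by
    intro y
    refine Matrix.ext fun i j => ?_
    rw [hn', glAdeleEquiv930_val, hn]
    fin_cases i <;> fin_cases j <;> simp [adeleEquiv930_apply_symm_apply]
  have key := h ν hνH (Am '' D) hD' n' hn'1 (glAdeleEquiv930 e g)
  rw [hmp.setIntegral_image_emb Am.measurableEmbedding] at key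
  rw [← key]
  refine setIntegral_congr_fun₀ ?_ ?_
  · exact hD.nullMeasurableSet
  · intro x _
    show φ (glAdeleEquiv930 e (n x * g))
      = φ (glAdeleEquiv930 e (n (adeleEquiv930 e.symm (Am x))) * glAdeleEquiv930 e g)
    rw [hAm_apply, adeleEquiv930_symm_apply_apply, map_mul]

/-! ## 4. Cusp functions of T2 -/

/-- Transport of the cusp functions of T2 (invariant under the positive scalars at every
infinite place). -/
theorem isCuspFnT2_comp_glAdeleEquiv930 (e : K ≃+* L) (𝔫 : Ideal (𝓞 K)) (φ : G L → ℂ)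
    (h : T2.IsCuspFn (𝔫.map (RingOfIntegers.mapRingEquiv e)) φ) :
    T2.IsCuspFn 𝔫 (fun x => φ (glAdeleEquiv930 e x)) where
  cont := h.cont.comp (continuous_glAdeleEquiv930 e)
  bdd := by
    obtain ⟨C, hC⟩ := h.bdd
    exact ⟨C, fun g => hC _⟩
  left_inv := by
    intro γ g
    show φ (glAdeleEquiv930 e (_ * g)) = φ (glAdeleEquiv930 e g)
    rw [map_mul, glAdeleEquiv930_map_algebraMap]
    exact h.left_inv _ _
  level_inv := by
    intro u hu g
    show φ (glAdeleEquiv930 e (g * u)) = φ (glAdeleEquiv930 e g)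
    rw [map_mul]
    exact h.level_inv _ ((inLevelGroup_glAdeleEquiv930 e 𝔫 u).2 hu) _
  arch_scalar := by
    intro w z hz g
    show φ (glAdeleEquiv930 e (g * z)) = φ (glAdeleEquiv930 e g)
    rw [map_mul]
    refine h.arch_scalar (infPull930 e.symm w) _ ?_ _
    rw [isArchPosScalar_glAdeleEquiv930, infPull930_symm]
    exact hz
  arch_compact := by
    intro w k hk g
    show φ (glAdeleEquiv930 e (g * k)) = φ (glAdeleEquiv930 e g)
    rw [map_mul]
    refine h.arch_compact (infPull930 e.symm w) _ ?_ _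
    rw [isArchCompact_glAdeleEquiv930, infPull930_symm]
    exact hk
  cuspidal := isCuspidalFn_comp_glAdeleEquiv930 e φ h.cuspidal

end TwoFields

/-! ## 5. The operator `R(σ)` and the operators of T2 -/

section OneField

open Fermat.Agent.LT.T5

variable {K : Type} [Field K] [NumberField K]

theorem Rsig_eq930 (s : AdelicAut K) (φ : G K → ℂ) :
    Rsig s φ = fun x => φ (glAdeleEquiv930 s.σ.symm x) := by
  funext x
  show φ (s.onGinv x) = _
  rw [onGinv_eq_glAdeleEquiv930]

/-- The image `σ(w)` of an infinite place. -/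
abbrev infImg930 (s : AdelicAut K) (w : InfinitePlace K) : InfinitePlace K :=
  infPull930 s.σ.symm w

/-- The image `σ(v)` of a finite place. -/
abbrev finImg930 (s : AdelicAut K) (v : HeightOneSpectrum (𝓞 K)) : HeightOneSpectrum (𝓞 K) :=
  finPull930 s.σ.symm v

theorem infImg930_pull (s : AdelicAut K) (w : InfinitePlace K) :
    infImg930 s (infPull930 s.σ w) = w :=
  infPull930_symm s.σ.symm w

theorem finImg930_pull (s : AdelicAut K) (v : HeightOneSpectrum (𝓞 K)) :
    finImg930 s (finPull930 s.σ v) = v :=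
  finPull930_symm s.σ.symm v

theorem placeRel_finPull_self930 (s : AdelicAut K) (v : HeightOneSpectrum (𝓞 K)) :
    PlaceRel s (finPull930 s.σ v) v := by
  rw [placeRel_iff930]
  exact (finImg930_pull s v).symm

/-- `R(σ) T_H = T_{σ H} R(σ)`. -/
theorem Rsig_heckeSum930 (s : AdelicAut K) (H : Finset (G K)) (φ : G K → ℂ) :
    Rsig s (T2.heckeSum H φ)
      = T2.heckeSum (H.map (onGHomeo930 s).toEquiv.toEmbedding) (Rsig s φ) := by
  funext g
  show ∑ h ∈ H, φ (s.onGinv g * h)
    = ∑ h ∈ H.map (onGHomeo930 s).toEquiv.toEmbedding, φ (s.onGinv (g * h))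
  rw [Finset.sum_map]
  refine Finset.sum_congr rfl fun h _ => ?_
  show φ (s.onGinv g * h) = φ (s.onGinv (g * s.onG h))
  rw [map_mul, onGinv_onG930]

/-- `R(σ) S_z = S_{σ z} R(σ)`. -/
theorem Rsig_shift930 (s : AdelicAut K) (z : G K) (φ : G K → ℂ) :
    Rsig s (T2.shift z φ) = T2.shift (s.onG z) (Rsig s φ) := by
  funext g
  show φ (s.onGinv g * z) = φ (s.onGinv (g * s.onG z))
  rw [map_mul, onGinv_onG930]

/-- The image of a Hecke coset system at `v` is a Hecke coset system at `σ(v)`. -/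
theorem isHeckeCosetSystem_onG930 (s : AdelicAut K) (v : HeightOneSpectrum (𝓞 K))
    (H : Finset (G K)) (hH : IsHeckeCosetSystem v H) :
    IsHeckeCosetSystem (finImg930 s v) (H.map (onGHomeo930 s).toEquiv.toEmbedding) := by
  have h1 : H.map (onGHomeo930 s).toEquiv.toEmbedding
      = H.map (glAdeleEquiv930 s.σ).toEquiv.toEmbedding := by
    have hemb : (onGHomeo930 s).toEquiv.toEmbedding = (glAdeleEquiv930 s.σ).toEquiv.toEmbedding := by
      ext x
      exact congrArg (fun g : G K => (g : Matrix (Fin 2) (Fin 2) (Adl K)) _ _)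
        (onG_eq_glAdeleEquiv930 s x)
    rw [hemb]
  rw [h1, isHeckeCosetSystem_map930]
  have h2 : finPull930 s.σ (finImg930 s v) = v := finPull930_symm s.σ v
  rw [h2]
  exact hH

/-- The image of a scalar uniformiser at `v` is a scalar uniformiser at `σ(v)`. -/
theorem isScalarUniformizerAt_onG930 (s : AdelicAut K) (v : HeightOneSpectrum (𝓞 K))
    (z : G K) (hz : IsScalarUniformizerAt v z) :
    IsScalarUniformizerAt (finImg930 s v) (s.onG z) := by
  rw [onG_eq_glAdeleEquiv930, isScalarUniformizerAt_glAdeleEquiv930]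
  have h2 : finPull930 s.σ (finImg930 s v) = v := finPull930_symm s.σ v
  rw [h2]
  exact hz

theorem map_symm_of_stable930 (s : AdelicAut K) {𝔫 : Ideal (𝓞 K)}
    (h𝔫 : 𝔫.map (RingOfIntegers.mapRingEquiv s.σ) = 𝔫) :
    𝔫.map (RingOfIntegers.mapRingEquiv s.σ.symm) = 𝔫 := by
  have h2 : 𝔫.map ((RingOfIntegers.mapRingEquiv s.σ).symm : 𝓞 K →+* 𝓞 K)
      = 𝔫.comap (RingOfIntegers.mapRingEquiv s.σ : 𝓞 K →+* 𝓞 K) :=
    Ideal.map_symm (I := 𝔫) (f := (RingOfIntegers.mapRingEquiv s.σ))
  have h3 : 𝔫.comap (RingOfIntegers.mapRingEquiv s.σ : 𝓞 K →+* 𝓞 K) = 𝔫 := by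
    conv_lhs => rw [← h𝔫]
    exact Ideal.comap_map_of_bijective _ (RingOfIntegers.mapRingEquiv s.σ).bijective
  have h4 : 𝔫.map (RingOfIntegers.mapRingEquiv s.σ.symm)
      = 𝔫.map ((RingOfIntegers.mapRingEquiv s.σ).symm : 𝓞 K →+* 𝓞 K) := rfl
  rw [h4, h2, h3]

/-- **`R(σ)` preserves the cusp functions of T2** of a `σ`-stable level. -/
theorem isCuspFnT2_Rsig930 (s : AdelicAut K) {𝔫 : Ideal (𝓞 K)}
    (h𝔫 : 𝔫.map (RingOfIntegers.mapRingEquiv s.σ) = 𝔫) {φ : G K → ℂ}
    (h : T2.IsCuspFn 𝔫 φ) : T2.IsCuspFn 𝔫 (Rsig s φ) := by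
  rw [Rsig_eq930]
  refine isCuspFnT2_comp_glAdeleEquiv930 s.σ.symm 𝔫 φ ?_
  rw [map_symm_of_stable930 s h𝔫]
  exact h

/-- **`R(σ)` moves the eigenvalue function of the sphere means at `w` to `σ(w)`.** -/
theorem meanEigC_Rsig930 (s : AdelicAut K) (w : InfinitePlace K) (φ : G K → ℂ)
    (hinv : ∀ k : G K, IsArchCompact w k → ∀ g : G K, φ (g * k) = φ g) (m : ℝ → ℂ) :
    T2.MeanEigC (Rsig s φ) (infImg930 s w) m ↔ T2.MeanEigC φ w m := by
  rw [Rsig_eq930]
  exact meanEigC_comp_glAdeleEquiv930 s.σ.symm w φ hinv m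

/-- **`R(σ)` moves the eigenvalue function of the circle means at `w` to `σ(w)`.** -/
theorem meanEigR_Rsig930 (s : AdelicAut K) (w : InfinitePlace K) (φ : G K → ℂ) (m : ℝ → ℂ) :
    T2.MeanEigR (Rsig s φ) (infImg930 s w) m ↔ T2.MeanEigR φ w m := by
  rw [Rsig_eq930]
  exact meanEigR_comp_glAdeleEquiv930 s.σ.symm w φ m

/-! ## 6. The pairing of T2 and the joint eigenbases -/

attribute [local instance] Fermat.Agent.LT.T5.instMeasurableSpaceG

/-- A frame of T2 is a frame of T5 (tower T1 is closed). -/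
theorem isFrame_of_frameT2_930 (F : T2.Frame K) : IsFrame F.μ F.D := by
  have hT := Fermat.Agent.LT.T1.t1Out K
  have : LocallyCompactSpace (G K) := hT.locComp.2.1
  have : SecondCountableTopology (G K) := hT.locComp.2.2.2
  have := F.haar
  have : F.μ.IsMulRightInvariant := hT.unimod F.μ F.haar
  exact Fermat.Agent.LT.T5.H62.isFrame_of_haar62 F.μ F.D F.meas F.sub F.strict F.fin

/-- Every adelic automorphism preserves every frame of T2 (level `⊥`). -/
theorem exists_autPreserves_frameT2_930 (F : T2.Frame K) (s : AdelicAut K) :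
    ∃ r : G K, AutPreserves s ⊥ F.μ r := by
  have hT := Fermat.Agent.LT.T1.t1Out K
  obtain ⟨r, hr⟩ := Fermat.Agent.LT.T5.H62.exists_rayGen62 K
  exact ⟨r, autPreserves_all930 hT.locComp.2.1 hT.locComp.2.2.2 s ⊥ Ideal.map_bot F.μ F.haar
    r hr⟩

/-- **`R(σ)` is unitary for the pairing of T2** (continuous left-`GL₂(K)`-invariant functions). -/
theorem pair_Rsig930 (F : T2.Frame K) (s : AdelicAut K) {φ ψ : G K → ℂ}
    (hφc : Continuous φ) (hψc : Continuous ψ)
    (hφ : ∀ (γ : GL (Fin 2) K) (g : G K), φ (ratG γ * g) = φ g)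
    (hψ : ∀ (γ : GL (Fin 2) K) (g : G K), ψ (ratG γ * g) = ψ g) :
    T2.pair F (Rsig s φ) (Rsig s ψ) = T2.pair F φ ψ := by
  obtain ⟨r, hP⟩ := exists_autPreserves_frameT2_930 F s
  exact innerD_Rsig930 (isFrame_of_frameT2_930 F) hP hφc hψc hφ hψ

theorem pair_Rsig_cusp930 (F : T2.Frame K) (s : AdelicAut K) {𝔫 𝔫' : Ideal (𝓞 K)}
    {φ ψ : G K → ℂ} (hφ : T2.IsCuspFn 𝔫 φ) (hψ : T2.IsCuspFn 𝔫' ψ) :
    T2.pair F (Rsig s φ) (Rsig s ψ) = T2.pair F φ ψ :=
  pair_Rsig930 F s hφ.cont hψ.cont hφ.left_inv hψ.left_inv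

/-- Divisibility of a `σ`-stable level by `σ⁻¹(v)` and by `v`. -/
theorem dvd_finPull930_iff (s : AdelicAut K) {𝔫 : Ideal (𝓞 K)}
    (h𝔫 : 𝔫.map (RingOfIntegers.mapRingEquiv s.σ) = 𝔫) (v : HeightOneSpectrum (𝓞 K)) :
    (finPull930 s.σ v).asIdeal ∣ 𝔫 ↔ v.asIdeal ∣ 𝔫 := by
  rw [Ideal.dvd_iff_le, Ideal.dvd_iff_le]
  show 𝔫 ≤ v.asIdeal.comap (RingOfIntegers.mapRingEquiv s.σ : 𝓞 K →+* 𝓞 K) ↔ _
  rw [← Ideal.map_le_iff_le_comap]
  have h1 : 𝔫.map (RingOfIntegers.mapRingEquiv s.σ : 𝓞 K →+* 𝓞 K) = 𝔫 := h𝔫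
  rw [h1]

theorem isComplex_infPull930 (s : AdelicAut K) (w : InfinitePlace K) :
    (infPull930 s.σ w).IsComplex ↔ w.IsComplex := by
  rw [← InfinitePlace.not_isReal_iff_isComplex, ← InfinitePlace.not_isReal_iff_isComplex,
    isReal_infPull930]

/-- **`R(σ)` maps a joint eigenbasis of the cusp functions of a `σ`-stable level to a joint
eigenbasis, the eigen-data being moved by `σ`.** -/
theorem isCuspBasis_Rsig930 (s : AdelicAut K) {𝔫 : Ideal (𝓞 K)}
    (h𝔫 : 𝔫.map (RingOfIntegers.mapRingEquiv s.σ) = 𝔫) (F : T2.Frame K) {ι : Type}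
    {u : ι → G K → ℂ} {m : ι → InfinitePlace K → ℝ → ℂ}
    {a b : ι → HeightOneSpectrum (𝓞 K) → ℂ} (h : T2.IsCuspBasis 𝔫 F u m a b) :
    T2.IsCuspBasis 𝔫 F (fun j => Rsig s (u j)) (fun j w => m j (infPull930 s.σ w))
      (fun j v => a j (finPull930 s.σ v)) (fun j v => b j (finPull930 s.σ v)) where
  cusp j := isCuspFnT2_Rsig930 s h𝔫 (h.cusp j)
  norm_one j := by
    rw [pair_Rsig_cusp930 F s (h.cusp j) (h.cusp j)]
    exact h.norm_one j
  orth i j hij := by
    rw [pair_Rsig_cusp930 F s (h.cusp i) (h.cusp j)]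
    exact h.orth i j hij
  eig_complex j w hw := by
    have h1 := (meanEigC_Rsig930 s (infPull930 s.σ w) (u j)
      (fun k hk g => (h.cusp j).arch_compact _ k hk g) (m j (infPull930 s.σ w))).2
      (h.eig_complex j _ ((isComplex_infPull930 s w).2 hw))
    rw [infImg930_pull] at h1
    exact h1
  eig_real j w hw := by
    have h1 := (meanEigR_Rsig930 s (infPull930 s.σ w) (u j) (m j (infPull930 s.σ w))).2
      (h.eig_real j _ ((isReal_infPull930 s.σ w).2 hw))
    rw [infImg930_pull] at h1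
    exact h1
  hecke j v hv :=
    (isHeckeEigenAt_Rsig930 s (placeRel_finPull_self930 s v) (u j) _ _).2
      (h.hecke j _ (fun hd => hv ((dvd_finPull930_iff s h𝔫 v).1 hd)))
  unit_b j v hv := h.unit_b j _ (fun hd => hv ((dvd_finPull930_iff s h𝔫 v).1 hd))
  conj_a j v hv := h.conj_a j _ (fun hd => hv ((dvd_finPull930_iff s h𝔫 v).1 hd))
  bound_a j v hv := by
    have h1 := h.bound_a j _ (fun hd => hv ((dvd_finPull930_iff s h𝔫 v).1 hd))
    rw [absNorm_finPull930] at h1
    exact h1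
  real_m j w d hd := h.real_m j _ d hd
  parseval φ hφ := by
    have h𝔫' : 𝔫.map (RingOfIntegers.mapRingEquiv (invAut930 s).σ) = 𝔫 :=
      map_symm_of_stable930 s h𝔫
    have hφ' : T2.IsCuspFn 𝔫 (Rsig (invAut930 s) φ) := isCuspFnT2_Rsig930 (invAut930 s) h𝔫' hφ
    have hp := h.parseval _ hφ'
    have e1 : ∀ j, T2.pair F φ (Rsig s (u j)) = T2.pair F (Rsig (invAut930 s) φ) (u j) := by
      intro j
      have h2 := pair_Rsig_cusp930 F s hφ' (h.cusp j)
      rw [Rsig_Rsig_invAut930] at h2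
      exact h2
    have e2 : T2.nsq F φ = T2.nsq F (Rsig (invAut930 s) φ) := by
      have h2 := pair_Rsig_cusp930 F s hφ' hφ'
      rw [Rsig_Rsig_invAut930] at h2
      unfold T2.nsq
      rw [h2]
    simp only [e1, e2]
    exact hp

end OneField

end Fermat.Agent.LT.T7.H930
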