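import Mathlib
import Fermat.Agent.LT.T7.Level2S
import Fermat.Agent.LT.T7.H930.RsigOps
import Fermat.Agent.LT.T7.H930.CompDataExists

/-!
# Row LT, asset T7.M2 (helper930): `R(σ)` in the vocabulary of LEVEL 2

OFF-MAIN.  Vocabulary: `T7/Level2.lean` (sha256 1551664660339642) and `T7/Level2S.lean`
(sha256 01962048e7c51d57) of helper797, `T5/Spec.lean` v4, A0; byte-identical copies.  Uses the
closed tower T1 (helper54) and my assets T1.AUT, RSIG, T7.M0, T7.M1.  UNCONDITIONAL.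
For the owners of `SpecUpSC` (helper736 and the leaves of that node).

## One field (`s : T5.AdelicAut K`, every `s`)

* `Rsig_cosetOp930`, `Rsig_iwOp930`, `Rsig_shiftOp930`, `Rsig_iwOp_iterate930`, **`Rsig_word930`**:
  `R(σ) [Hg] Z_z^k 𝒰_w^m = [σ Hg] Z_{σ z}^k 𝒰_{σ w}^m R(σ)`;
* `inIwahori_glAdeleEquiv930`, `inIwahori_onG930`, `inIwahoriCoset_onG930`,
  `isIwCosetSystem_onG930`, `isDblCosetSystem_onG930` : the Iwahori subgroups / cosets and the
  systems of representatives are moved by `σ`;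
* `orbit_periodic930`, `orbit_img930`, `orbit_pull930` : an orbit `o` with
  `PlaceRel s (o j) (o (j+1))` is `l`-periodic if `σ^l = 1`, and `{o j : j < l}` is stable
  under `σ` and `σ⁻¹`;
* `isIwInv_Rsig930`, **`isWFn_Rsig930`**, **`isEigFn_Rsig930`** : `R(σ)` preserves `IsIwInv`,
  `IsWFn` (level preserved by `σ`), and maps `IsEigFn … ψ C` to
  `IsEigFn … (R(σ) ψ) (eigMove930 s C)`, `eigMove930 s C = C ∘ σ⁻¹`;
* `eigMove_iterate_eq930` : `(eigMove930 s)^[l] C = C` if `σ^l = 1`;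
  `wordEv_eigMove930` : `X(C ∘ σ⁻¹) = (σ⁻¹ X)(C)` (`genMove930`), `genMove_out930`.

## The data of level 2 (`IsL2Data ℓ Φ Dt`, `Dt.IsStable`)

* `l2_cyc930`, `l2_fixes930` : `σ` is cyclic of degree `ℓ` and fixes `K`;
* `l2_base_stable930` : `𝔑₀.map σ = 𝔑₀`; **`l2_baseAut930`** :
  `T5.AutPreserves Dt.s Dt.𝔑₀ Dt.R'.μ Dt.R'.r` (= `BaseStable` of helper736);
* **`l2_isWFn_Rsig930`**, **`l2_isEigFn_Rsig930`**, `l2_innerD_Rsig930` : `R(σ)` is a unitary
  operator of the space of the invariant cusp functions of the base level, moving the eigen-data;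
* `l2_mem_S'_pull930`, `l2_isBad_onG930`, `l2_isDblCosetSystem_onG930`, `l2_systems_onG930`,
  `l2_Rsig_word930` : `S'`, the bad elements and the systems are `σ`-stable; the conjugation
  formula at the base level (the Iwahori operator moves from `o 0` to `o 1`);
* **`l2_agreeOut_move930`** (+ converse) : the class of `Φ` is `σ`-stable
  (`C.AgreeOut S' (eigOf Φ) ↔ (C ∘ σ⁻¹).AgreeOut S' (eigOf Φ)`), from `IsL2Data.const`;
* **`l2_op_up_Rsig930`**, **`l2_diagCoeff930`** : for an eigenfunction `ψ` of the base level with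
  eigen-data `C`:
  `⟨R(φ' g X k m) R(σ) ψ, ψ⟩ = X(σC) · c_g(σC) · ⟨[U g U] Z^k 𝒰^m R(σ) ψ, ψ⟩`.
-/

set_option autoImplicit false

open AutomorphicForm IsDedekindDomain NumberField MeasureTheory
open scoped MatrixGroups ComplexConjugate

noncomputable section

namespace Fermat.Agent.LT.T7.H930

open Fermat.Agent.LT.H556 Fermat.Agent.LT.H556.A0 Fermat.Agent.LT.T1.H930
open Fermat.Agent.LT.T7

section TwoFields

variable {K L : Type} [Field K] [NumberField K] [Field L] [NumberField L]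

/-- Transport of the Iwahori condition. -/
theorem inIwahori_glAdeleEquiv930 (e : K ≃+* L) (w : HeightOneSpectrum (𝓞 L)) (g : G K) :
    T5.InIwahori w (glAdeleEquiv930 e g) ↔ T5.InIwahori (finPull930 e w) g := by
  show (IsIntegralAt w (glAdeleEquiv930 e g) ∧ IsIntegralAt w (glAdeleEquiv930 e g)⁻¹ ∧
      Valued.v (finComp w (glAdeleEquiv930 e g) 1 0) < 1) ↔
    (IsIntegralAt (finPull930 e w) g ∧ IsIntegralAt (finPull930 e w) g⁻¹ ∧
      Valued.v (finComp (finPull930 e w) g 1 0) < 1)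
  rw [← map_inv, isIntegralAt_glAdeleEquiv930, isIntegralAt_glAdeleEquiv930,
    finComp_glAdeleEquiv930]
  have h : Valued.v (((finComp (finPull930 e w) g).map (finMapEquiv930 e w)) 1 0)
      = Valued.v (finComp (finPull930 e w) g 1 0) :=
    valued_finMapEquiv930 e w _
  rw [h]

/-- Transport of the Iwahori double cosets. -/
theorem inIwahoriCoset_glAdeleEquiv930_of (e : K ≃+* L) (w : HeightOneSpectrum (𝓞 L)) (m : ℕ)
    (g : G K) (h : T5.InIwahoriCoset (finPull930 e w) m g) :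
    T5.InIwahoriCoset w m (glAdeleEquiv930 e g) := by
  obtain ⟨k₁, k₂, t, c, hk₁, hk₂, hc, ht, hg⟩ := h
  refine ⟨glAdeleEquiv930 e k₁, glAdeleEquiv930 e k₂, glAdeleEquiv930 e t,
    finMapEquiv930 e w c, (inIwahori_glAdeleEquiv930 e w k₁).2 hk₁,
    (inIwahori_glAdeleEquiv930 e w k₂).2 hk₂, ?_, ?_, ?_⟩
  · rw [valued_finMapEquiv930]
    exact hc
  · rw [finComp_glAdeleEquiv930, ht]
    ext i j
    fin_cases i <;> fin_cases j <;> simp [Matrix.map_apply]
  · rw [← map_mul, ← map_mul, finComp_glAdeleEquiv930, finComp_glAdeleEquiv930, hg]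

end TwoFields

/-! ## 2. One field: `R(σ)` and the operators of level 2 -/

section OneField

open Fermat.Agent.LT.T5

variable {K : Type} [Field K] [NumberField K]

/-- The image of a finite set of elements under `σ`. -/
abbrev imgSet930 (s : AdelicAut K) (H : Finset (G K)) : Finset (G K) :=
  H.map (onGHomeo930 s).toEquiv.toEmbedding

theorem mem_imgSet930 (s : AdelicAut K) (H : Finset (G K)) (x : G K) :
    x ∈ imgSet930 s H ↔ ∃ h ∈ H, s.onG h = x := by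
  show x ∈ H.map (onGHomeo930 s).toEquiv.toEmbedding ↔ _
  rw [Finset.mem_map]
  rfl

/-- `R(σ) [H] = [σ H] R(σ)`. -/
theorem Rsig_cosetOp930 (s : AdelicAut K) (H : Finset (G K)) (ψ : G K → ℂ) :
    Rsig s (cosetOp H ψ) = cosetOp (imgSet930 s H) (Rsig s ψ) :=
  Rsig_heckeSum930 s H ψ

/-- `R(σ) 𝒰_w = 𝒰_{σ w} R(σ)`. -/
theorem Rsig_iwOp930 (s : AdelicAut K) (w : HeightOneSpectrum (𝓞 K)) (H : Finset (G K))
    (ψ : G K → ℂ) :
    Rsig s (iwOp w H ψ) = iwOp (finImg930 s w) (imgSet930 s H) (Rsig s ψ) := by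
  funext g
  show ((Real.sqrt (Ideal.absNorm w.asIdeal : ℝ) : ℝ) : ℂ)⁻¹ * ∑ h ∈ H, ψ (s.onGinv g * h)
    = ((Real.sqrt (Ideal.absNorm (finImg930 s w).asIdeal : ℝ) : ℝ) : ℂ)⁻¹
        * ∑ h ∈ imgSet930 s H, ψ (s.onGinv (g * h))
  rw [absNorm_finPull930, Finset.sum_map]
  refine congrArg _ (Finset.sum_congr rfl fun h _ => ?_)
  show ψ (s.onGinv g * h) = ψ (s.onGinv (g * s.onG h))
  rw [map_mul, onGinv_onG930]

/-- `R(σ) Z_z^k = Z_{σ z}^k R(σ)`. -/
theorem Rsig_shiftOp930 (s : AdelicAut K) (z : G K) (k : ℤ) (ψ : G K → ℂ) :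
    Rsig s (shiftOp z k ψ) = shiftOp (s.onG z) k (Rsig s ψ) := by
  funext g
  show ψ (s.onGinv g * z ^ k) = ψ (s.onGinv (g * s.onG z ^ k))
  rw [map_mul, map_zpow, onGinv_onG930]

/-- Iterates of the Iwahori operator. -/
theorem Rsig_iwOp_iterate930 (s : AdelicAut K) (w : HeightOneSpectrum (𝓞 K)) (H : Finset (G K))
    (m : ℕ) (ψ : G K → ℂ) :
    Rsig s ((iwOp w H)^[m] ψ) = (iwOp (finImg930 s w) (imgSet930 s H))^[m] (Rsig s ψ) := by
  induction m generalizing ψ with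
  | zero => rfl
  | succ m ih =>
    rw [Function.iterate_succ_apply, Function.iterate_succ_apply, ih, Rsig_iwOp930]

/-- **The conjugation formula**: `R(σ) [Hg] Z^k 𝒰^m = [σ Hg] Z_σ^k 𝒰_σ^m R(σ)`. -/
theorem Rsig_word930 (s : AdelicAut K) (w : HeightOneSpectrum (𝓞 K)) (Hg H : Finset (G K))
    (z : G K) (k : ℤ) (m : ℕ) (ψ : G K → ℂ) :
    Rsig s (cosetOp Hg (shiftOp z k ((iwOp w H)^[m] ψ)))
      = cosetOp (imgSet930 s Hg) (shiftOp (s.onG z) k
          ((iwOp (finImg930 s w) (imgSet930 s H))^[m] (Rsig s ψ))) := by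
  rw [Rsig_cosetOp930, Rsig_shiftOp930, Rsig_iwOp_iterate930]

theorem inIwahori_onG930 (s : AdelicAut K) (w : HeightOneSpectrum (𝓞 K)) (g : G K) :
    InIwahori (finImg930 s w) (s.onG g) ↔ InIwahori w g := by
  rw [onG_eq_glAdeleEquiv930, inIwahori_glAdeleEquiv930]
  have h2 : finPull930 s.σ (finImg930 s w) = w := finPull930_symm s.σ w
  rw [h2]

theorem inIwahori_onGinv930 (s : AdelicAut K) (w : HeightOneSpectrum (𝓞 K)) (g : G K) :
    InIwahori w (s.onGinv g) ↔ InIwahori (finImg930 s w) g := by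
  rw [onGinv_eq_glAdeleEquiv930, inIwahori_glAdeleEquiv930]

theorem inIwahoriCoset_onG930 (s : AdelicAut K) (w : HeightOneSpectrum (𝓞 K)) (m : ℕ) (g : G K)
    (h : InIwahoriCoset w m g) : InIwahoriCoset (finImg930 s w) m (s.onG g) := by
  rw [onG_eq_glAdeleEquiv930]
  refine inIwahoriCoset_glAdeleEquiv930_of s.σ (finImg930 s w) m g ?_
  have h2 : finPull930 s.σ (finImg930 s w) = w := finPull930_symm s.σ w
  rw [h2]
  exact h

theorem isLocalAtFin_onG930 (s : AdelicAut K) (w : HeightOneSpectrum (𝓞 K)) (g : G K) :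
    IsLocalAtFin (finImg930 s w) (s.onG g) ↔ IsLocalAtFin w g := by
  rw [onG_eq_glAdeleEquiv930, isLocalAtFin_glAdeleEquiv930]
  have h2 : finPull930 s.σ (finImg930 s w) = w := finPull930_symm s.σ w
  rw [h2]

theorem trivAtFin_onGinv930 (s : AdelicAut K) (v : HeightOneSpectrum (𝓞 K)) (g : G K) :
    TrivAtFin v (s.onGinv g) ↔ TrivAtFin (finImg930 s v) g := by
  rw [onGinv_eq_glAdeleEquiv930, trivAtFin_glAdeleEquiv930]

theorem trivAtInf_onGinv930 (s : AdelicAut K) (w : InfinitePlace K) (g : G K) :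
    TrivAtInf w (s.onGinv g) ↔ TrivAtInf (infImg930 s w) g := by
  rw [onGinv_eq_glAdeleEquiv930, trivAtInf_glAdeleEquiv930]

theorem trivAtFin_onG930 (s : AdelicAut K) (v : HeightOneSpectrum (𝓞 K)) (g : G K) :
    TrivAtFin v (s.onG g) ↔ TrivAtFin (finPull930 s.σ v) g := by
  rw [onG_eq_glAdeleEquiv930, trivAtFin_glAdeleEquiv930]

theorem trivAtInf_onG930 (s : AdelicAut K) (w : InfinitePlace K) (g : G K) :
    TrivAtInf w (s.onG g) ↔ TrivAtInf (infPull930 s.σ w) g := by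
  rw [onG_eq_glAdeleEquiv930, trivAtInf_glAdeleEquiv930]

/-- The image of an Iwahori coset system at `w` is an Iwahori coset system at `σ(w)`. -/
theorem isIwCosetSystem_onG930 (s : AdelicAut K) (w : HeightOneSpectrum (𝓞 K))
    (H : Finset (G K)) (hH : IsIwCosetSystem w H) :
    IsIwCosetSystem (finImg930 s w) (imgSet930 s H) := by
  obtain ⟨hcard, hmem, hne⟩ := hH
  refine ⟨?_, ?_, ?_⟩
  · rw [Finset.card_map, absNorm_finPull930]
    exact hcard
  · intro x hx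
    obtain ⟨h, hh, rfl⟩ := (mem_imgSet930 s H x).1 hx
    exact ⟨(isLocalAtFin_onG930 s w h).2 (hmem h hh).1, inIwahoriCoset_onG930 s w 1 h (hmem h hh).2⟩
  · intro x hx x' hx' hxx'
    obtain ⟨h, hh, rfl⟩ := (mem_imgSet930 s H x).1 hx
    obtain ⟨h', hh', rfl⟩ := (mem_imgSet930 s H x').1 hx'
    have hne' : h ≠ h' := fun e => hxx' (by rw [e])
    rw [← map_inv, ← map_mul, inIwahori_onG930]
    exact hne h hh h' hh' hne'

/-- The image of a system of representatives of `U g U / U` is one of `U σ(g) U / U`, for a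
level group preserved by `σ`. -/
theorem isDblCosetSystem_onG930 (s : AdelicAut K) {𝔫 : Ideal (𝓞 K)}
    (hL : ∀ u : G K, InLevelGroup 𝔫 u ↔ InLevelGroup 𝔫 (s.onG u)) (g : G K) (H : Finset (G K))
    (hH : IsDblCosetSystem 𝔫 g H) : IsDblCosetSystem 𝔫 (s.onG g) (imgSet930 s H) := by
  obtain ⟨hmem, hne, hcov⟩ := hH
  refine ⟨?_, ?_, ?_⟩
  · intro x hx
    obtain ⟨h, hh, rfl⟩ := (mem_imgSet930 s H x).1 hx
    obtain ⟨u₁, u₂, hu₁, hu₂, rfl⟩ := hmem h hh
    exact ⟨s.onG u₁, s.onG u₂, (hL u₁).1 hu₁, (hL u₂).1 hu₂, by rw [map_mul, map_mul]⟩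
  · intro x hx x' hx' hxx'
    obtain ⟨h, hh, rfl⟩ := (mem_imgSet930 s H x).1 hx
    obtain ⟨h', hh', rfl⟩ := (mem_imgSet930 s H x').1 hx'
    have hne' : h ≠ h' := fun e => hxx' (by rw [e])
    rw [← map_inv, ← map_mul, ← hL]
    exact hne h hh h' hh' hne'
  · intro u hu
    have hu' : InLevelGroup 𝔫 (s.onGinv u) := by
      rw [hL, onG_onGinv930]
      exact hu
    obtain ⟨h, hh, hin⟩ := hcov _ hu'
    refine ⟨s.onG h, (mem_imgSet930 s H _).2 ⟨h, hh, rfl⟩, ?_⟩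
    have e1 : (s.onG h)⁻¹ * (u * s.onG g) = s.onG (h⁻¹ * (s.onGinv u * g)) := by
      rw [map_mul, map_mul, map_inv, onG_onGinv930]
    rw [e1, ← hL]
    exact hin

/-! ## 3. Orbits of places -/

/-- The ideal of `o (j + n)` is the image of the ideal of `o j` under `σ^n`. -/
theorem orbit_asIdeal930 (s : AdelicAut K) (o : ℕ → HeightOneSpectrum (𝓞 K))
    (ho : ∀ j : ℕ, PlaceRel s (o j) (o (j + 1))) (j n : ℕ) :
    (o (j + n)).asIdeal
      = Ideal.map (RingOfIntegers.mapRingEquiv ((s.σ : RingAut K) ^ n) : 𝓞 K →+* 𝓞 K)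
          (o j).asIdeal := by
  induction n with
  | zero =>
    have h1 : (RingOfIntegers.mapRingEquiv ((s.σ : RingAut K) ^ 0) : 𝓞 K →+* 𝓞 K)
        = RingHom.id (𝓞 K) := by
      ext x
      rfl
    rw [h1, Ideal.map_id]
    rfl
  | succ n ih =>
    have h1 : (o (j + (n + 1))).asIdeal
        = Ideal.map (RingOfIntegers.mapRingEquiv s.σ : 𝓞 K →+* 𝓞 K) (o (j + n)).asIdeal :=
      ho (j + n)
    rw [h1, ih, Ideal.map_map]
    congr 1
    ext x
    show (s.σ ((((s.σ : RingAut K) ^ n) (x : K)) : K) : K) = (((s.σ : RingAut K) ^ (n + 1)) (x : K) : K)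
    rw [pow_succ']
    rfl

/-- The orbit is periodic: `o (j + l) = o j` if `σ^l = 1`. -/
theorem orbit_periodic930 (s : AdelicAut K) (o : ℕ → HeightOneSpectrum (𝓞 K))
    (ho : ∀ j : ℕ, PlaceRel s (o j) (o (j + 1))) (l : ℕ) (hl : ∀ x : K, (s.σ ^ l) x = x)
    (j : ℕ) : o (j + l) = o j := by
  apply HeightOneSpectrum.ext
  rw [orbit_asIdeal930 s o ho j l]
  have h1 : (RingOfIntegers.mapRingEquiv ((s.σ : RingAut K) ^ l) : 𝓞 K →+* 𝓞 K)
      = RingHom.id (𝓞 K) := by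
    ext x
    exact hl x
  rw [h1, Ideal.map_id]

theorem orbit_succ930 (s : AdelicAut K) (o : ℕ → HeightOneSpectrum (𝓞 K))
    (ho : ∀ j : ℕ, PlaceRel s (o j) (o (j + 1))) (j : ℕ) : finImg930 s (o j) = o (j + 1) :=
  ((placeRel_iff930 s _ _).1 (ho j)).symm

theorem orbit_pred930 (s : AdelicAut K) (o : ℕ → HeightOneSpectrum (𝓞 K))
    (ho : ∀ j : ℕ, PlaceRel s (o j) (o (j + 1))) (j : ℕ) : finPull930 s.σ (o (j + 1)) = o j := by
  rw [← orbit_succ930 s o ho j]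
  exact finPull930_symm s.σ (o j)

/-- `σ` maps the orbit `o 0, …, o (l-1)` into itself. -/
theorem orbit_img930 (s : AdelicAut K) (o : ℕ → HeightOneSpectrum (𝓞 K))
    (ho : ∀ j : ℕ, PlaceRel s (o j) (o (j + 1))) (l : ℕ) (hl : ∀ x : K, (s.σ ^ l) x = x)
    (j : ℕ) (hj : j < l) : ∃ j' < l, finImg930 s (o j) = o j' := by
  rcases Nat.lt_or_ge (j + 1) l with h | h
  · exact ⟨j + 1, h, orbit_succ930 s o ho j⟩
  · have e : j + 1 = l := le_antisymm hj h
    refine ⟨0, lt_of_le_of_lt (Nat.zero_le j) hj, ?_⟩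
    rw [orbit_succ930 s o ho j, e]
    have := orbit_periodic930 s o ho l hl 0
    rw [zero_add] at this
    exact this

/-- `σ⁻¹` maps the orbit `o 0, …, o (l-1)` into itself. -/
theorem orbit_pull930 (s : AdelicAut K) (o : ℕ → HeightOneSpectrum (𝓞 K))
    (ho : ∀ j : ℕ, PlaceRel s (o j) (o (j + 1))) (l : ℕ) (hl : ∀ x : K, (s.σ ^ l) x = x)
    (j : ℕ) (hj : j < l) : ∃ j' < l, finPull930 s.σ (o j) = o j' := by
  rcases Nat.eq_zero_or_pos j with h | h
  · subst h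
    obtain ⟨m, rfl⟩ : ∃ m, l = m + 1 := ⟨l - 1, by omega⟩
    refine ⟨m, Nat.lt_succ_self m, ?_⟩
    have h1 := orbit_periodic930 s o ho (m + 1) hl 0
    rw [zero_add] at h1
    rw [← h1]
    exact orbit_pred930 s o ho m
  · obtain ⟨m, rfl⟩ : ∃ m, j = m + 1 := ⟨j - 1, by omega⟩
    exact ⟨m, by omega, orbit_pred930 s o ho m⟩

/-! ## 4. `R(σ)` preserves the invariant cusp functions -/

attribute [local instance] Fermat.Agent.LT.T5.instMeasurableSpaceG

/-- `R(σ)` preserves the Iwahori invariance along a `σ`-stable set of places. -/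
theorem isIwInv_Rsig930 (s : AdelicAut K) (l : ℕ) (o : ℕ → HeightOneSpectrum (𝓞 K))
    (h₁ : ∀ j < l, ∃ j' < l, finImg930 s (o j) = o j')
    (h₂ : ∀ j < l, ∃ j' < l, finPull930 s.σ (o j) = o j') {ψ : G K → ℂ}
    (h : IsIwInv l o ψ) : IsIwInv l o (Rsig s ψ) := by
  intro x hinf hfin hiw g
  show ψ (s.onGinv (g * x)) = ψ (s.onGinv g)
  rw [map_mul]
  refine h (s.onGinv x) ?_ ?_ ?_ _
  · intro w
    rw [trivAtInf_onGinv930]
    exact hinf _
  · intro v hv
    rw [trivAtFin_onGinv930]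
    refine hfin _ ?_
    intro j hj e
    obtain ⟨j', hj', e'⟩ := h₂ j hj
    refine hv j' hj' ?_
    rw [← e', ← e]
    exact (finPull930_symm s.σ v).symm
  · intro j hj
    rw [inIwahori_onGinv930]
    obtain ⟨j', hj', e'⟩ := h₁ j hj
    rw [e']
    exact hiw j' hj'

theorem isArchPosScalar_onGinv930 (s : AdelicAut K) (w : InfinitePlace K) (z : G K)
    (hz : IsArchPosScalar w z) : IsArchPosScalar (infPull930 s.σ w) (s.onGinv z) := by
  rw [onGinv_eq_glAdeleEquiv930, isArchPosScalar_glAdeleEquiv930]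
  have h2 : infPull930 s.σ.symm (infPull930 s.σ w) = w := infPull930_symm s.σ.symm w
  rw [h2]
  exact hz

/-- **`R(σ)` preserves the invariant cusp functions** of a level preserved by `σ`, along a
`σ`-stable set of places. -/
theorem isWFn_Rsig930 {s : AdelicAut K} {𝔫 : Ideal (𝓞 K)} {μ : Measure (G K)} {r : G K}
    (hP : AutPreserves s 𝔫 μ r) (l : ℕ) (o : ℕ → HeightOneSpectrum (𝓞 K))
    (h₁ : ∀ j < l, ∃ j' < l, finImg930 s (o j) = o j')
    (h₂ : ∀ j < l, ∃ j' < l, finPull930 s.σ (o j) = o j') {ψ : G K → ℂ}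
    (h : IsWFn 𝔫 r l o ψ) : IsWFn 𝔫 r l o (Rsig s ψ) where
  cusp := isCuspFn_Rsig930 hP (trivType_invariant930 s) h.cusp
  arch_scalar := by
    intro w z hz g
    show ψ (s.onGinv (g * z)) = ψ (s.onGinv g)
    rw [map_mul]
    exact h.arch_scalar _ _ (isArchPosScalar_onGinv930 s w z hz) _
  iw := isIwInv_Rsig930 s l o h₁ h₂ h.iw

/-- The eigen-data moved by `σ`. -/
def eigMove930 (s : AdelicAut K) (C : EigData K) : EigData K :=
  ⟨fun v => C.a (finPull930 s.σ v), fun v => C.b (finPull930 s.σ v),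
    fun w => C.m (infPull930 s.σ w)⟩

theorem meanEig_iff930 (ψ : G K → ℂ) (w : InfinitePlace K) (m : ℝ → ℂ) :
    MeanEig ψ w m ↔ T2.MeanEigC ψ w m := Iff.rfl

/-- **`R(σ)` maps the eigenfunctions with eigen-data `C` to the eigenfunctions with eigen-data
`C ∘ σ⁻¹`.** -/
theorem isEigFn_Rsig930 {s : AdelicAut K} {𝔫 : Ideal (𝓞 K)} {μ : Measure (G K)} {r : G K}
    (h𝔫 : 𝔫.map (RingOfIntegers.mapRingEquiv s.σ) = 𝔫)
    (hP : AutPreserves s 𝔫 μ r) (l : ℕ) (o : ℕ → HeightOneSpectrum (𝓞 K))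
    (h₁ : ∀ j < l, ∃ j' < l, finImg930 s (o j) = o j')
    (h₂ : ∀ j < l, ∃ j' < l, finPull930 s.σ (o j) = o j') {ψ : G K → ℂ} {C : EigData K}
    (h : IsEigFn 𝔫 r l o ψ C) : IsEigFn 𝔫 r l o (Rsig s ψ) (eigMove930 s C) where
  inv := isWFn_Rsig930 hP l o h₁ h₂ h.inv
  hecke v hv :=
    (isHeckeEigenAt_Rsig930 s (placeRel_finPull_self930 s v) ψ _ _).2
      (h.hecke _ (fun hd => hv ((dvd_finPull930_iff s h𝔫 v).1 hd)))
  mean w := by
    have hinv : ∀ k : G K, IsArchCompact (infPull930 s.σ w) k → ∀ g : G K, ψ (g * k) = ψ g := by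
      intro k hk g
      have := h.inv.cusp.aut.arch_compact _ k hk g
      rw [this]
      exact one_mul _
    have h1 := (meanEigC_Rsig930 s (infPull930 s.σ w) ψ hinv (C.m (infPull930 s.σ w))).2
      ((meanEig_iff930 _ _ _).1 (h.mean (infPull930 s.σ w)))
    rw [infImg930_pull] at h1
    exact (meanEig_iff930 _ _ _).2 h1

/-! ## 4b. Finite order on the places and on the eigen-data -/

theorem finImg_iterate_eq930 (s : AdelicAut K) (l : ℕ) (hl : ∀ x : K, (s.σ ^ l) x = x)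
    (w : HeightOneSpectrum (𝓞 K)) : (finImg930 s)^[l] w = w := by
  have ho : ∀ j : ℕ, PlaceRel s ((finImg930 s)^[j] w) ((finImg930 s)^[j + 1] w) := by
    intro j
    rw [Function.iterate_succ_apply']
    exact placeRel_finPull930 s _
  have h := orbit_periodic930 s (fun j => (finImg930 s)^[j] w) ho l hl 0
  rw [zero_add] at h
  exact h

theorem finPull_iterate_eq930 (s : AdelicAut K) (l : ℕ) (hl : ∀ x : K, (s.σ ^ l) x = x)
    (w : HeightOneSpectrum (𝓞 K)) : (finPull930 s.σ)^[l] w = w := by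
  have h1 : ∀ x : HeightOneSpectrum (𝓞 K), (finPull930 s.σ)^[l] ((finImg930 s)^[l] x) = x :=
    Function.LeftInverse.iterate (fun x => finPull930_symm s.σ x) l
  have h2 := h1 w
  rw [finImg_iterate_eq930 s l hl] at h2
  exact h2

theorem infPull_iterate930 (s : AdelicAut K) (n : ℕ) (w : InfinitePlace K) :
    (infPull930 s.σ)^[n] w = infPull930 ((s.σ : RingAut K) ^ n) w := by
  induction n with
  | zero =>
    refine InfinitePlace.ext _ _ fun x => ?_
    rfl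
  | succ n ih =>
    rw [Function.iterate_succ_apply', ih]
    refine InfinitePlace.ext _ _ fun x => ?_
    rw [infPull930_apply, infPull930_apply, infPull930_apply, pow_succ]
    rfl

theorem infPull_iterate_eq930 (s : AdelicAut K) (l : ℕ) (hl : ∀ x : K, (s.σ ^ l) x = x)
    (w : InfinitePlace K) : (infPull930 s.σ)^[l] w = w := by
  rw [infPull_iterate930]
  refine InfinitePlace.ext _ _ fun x => ?_
  rw [infPull930_apply, hl]

theorem eigMove_iterate930 (s : AdelicAut K) (n : ℕ) (C : EigData K) :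
    (eigMove930 s)^[n] C = ⟨fun v => C.a ((finPull930 s.σ)^[n] v),
      fun v => C.b ((finPull930 s.σ)^[n] v), fun w => C.m ((infPull930 s.σ)^[n] w)⟩ := by
  induction n generalizing C with
  | zero => rfl
  | succ n ih =>
    rw [Function.iterate_succ_apply, ih]
    show (⟨fun v => C.a (finPull930 s.σ ((finPull930 s.σ)^[n] v)),
      fun v => C.b (finPull930 s.σ ((finPull930 s.σ)^[n] v)),
      fun w => C.m (infPull930 s.σ ((infPull930 s.σ)^[n] w))⟩ : EigData K) = _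
    simp only [Function.iterate_succ_apply']

/-- **The action on the eigen-data has finite order.** -/
theorem eigMove_iterate_eq930 (s : AdelicAut K) (l : ℕ) (hl : ∀ x : K, (s.σ ^ l) x = x)
    (C : EigData K) : (eigMove930 s)^[l] C = C := by
  rw [eigMove_iterate930]
  simp only [finPull_iterate_eq930 s l hl, infPull_iterate_eq930 s l hl]

/-- The generators moved by `σ⁻¹`. -/
def genMove930 (s : AdelicAut K) (x : Gen K) : Gen K :=
  Gen.rec (motive := fun _ => Gen K) (fun w => Gen.T (finPull930 s.σ w))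
    (fun w => Gen.S (finPull930 s.σ w)) (fun w => Gen.Sinv (finPull930 s.σ w))
    (fun w d => Gen.M (infPull930 s.σ w) d) x

theorem genMove_ev930 (s : AdelicAut K) (x : Gen K) (C : EigData K) :
    (genMove930 s x).ev C = x.ev (eigMove930 s C) := by
  cases x <;> rfl

/-- `X(C ∘ σ⁻¹) = (σ⁻¹ X)(C)`. -/
theorem wordEv_eigMove930 (s : AdelicAut K) (X : List (Gen K)) (C : EigData K) :
    wordEv X (eigMove930 s C) = wordEv (X.map (genMove930 s)) C := by
  show (X.map fun g => g.ev (eigMove930 s C)).prod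
    = ((X.map (genMove930 s)).map fun g => g.ev C).prod
  rw [List.map_map]
  congr 1
  refine List.map_congr_left fun x _ => ?_
  exact (genMove_ev930 s x C).symm

theorem genMove_out930 (s : AdelicAut K) (S : Finset (HeightOneSpectrum (𝓞 K)))
    (hS : ∀ w : HeightOneSpectrum (𝓞 K), finPull930 s.σ w ∈ S ↔ w ∈ S) (x : Gen K) :
    (genMove930 s x).Out S ↔ x.Out S := by
  cases x with
  | T w => exact not_congr (hS w)
  | S w => exact not_congr (hS w)
  | Sinv w => exact not_congr (hS w)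
  | M w d => exact Iff.rfl

end OneField

/-! ## 5. The data of level 2 -/

section L2

open Fermat.Agent.LT.T5

attribute [local instance] Fermat.Agent.LT.T5.instMeasurableSpaceG

variable {K K' : Type} [Field K] [NumberField K] [Field K'] [NumberField K'] [Algebra K K']

omit [NumberField K] [NumberField K'] in
/-- The level `𝔫 𝒪_{K'}` is stable under every automorphism of `K'` which fixes `K`. -/
theorem map_level_stable_of_fixes930 (σ : K' ≃+* K')
    (hσ : ∀ x : K, σ (algebraMap K K' x) = algebraMap K K' x) (𝔫 : Ideal (𝓞 K)) :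
    (Ideal.map (algebraMap (𝓞 K) (𝓞 K')) 𝔫).map (RingOfIntegers.mapRingEquiv σ)
      = Ideal.map (algebraMap (𝓞 K) (𝓞 K')) 𝔫 := by
  have h : ((RingOfIntegers.mapRingEquiv σ : 𝓞 K' →+* 𝓞 K')).comp
      (algebraMap (𝓞 K) (𝓞 K')) = algebraMap (𝓞 K) (𝓞 K') := by
    ext x
    show (σ ((algebraMap (𝓞 K) (𝓞 K') x : 𝓞 K') : K') : K') = _
    have h1 : ((algebraMap (𝓞 K) (𝓞 K') x : 𝓞 K') : K') = algebraMap K K' (x : K) := rfl
    rw [h1]
    exact hσ _
  have h2 := Ideal.map_map (I := 𝔫) (algebraMap (𝓞 K) (𝓞 K'))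
    (RingOfIntegers.mapRingEquiv σ : 𝓞 K' →+* 𝓞 K')
  rw [h] at h2
  exact h2

theorem trivAtInf_one930 (w : InfinitePlace K) : TrivAtInf w (1 : G K) := by
  intro i j
  rw [Units.val_one]
  by_cases h : i = j
  · subst h
    rw [Matrix.one_apply_eq, Matrix.one_apply_eq]
    rfl
  · rw [Matrix.one_apply_ne h, Matrix.one_apply_ne h]
    rfl

theorem trivAtFin_one930 (v : HeightOneSpectrum (𝓞 K)) : TrivAtFin v (1 : G K) := by
  show finComp v (1 : G K) = 1
  refine Matrix.ext fun i j => ?_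
  show (((1 : G K) : Matrix (Fin 2) (Fin 2) (Adl K)) i j).2 v = _
  rw [Units.val_one]
  by_cases h : i = j
  · subst h
    rw [Matrix.one_apply_eq, Matrix.one_apply_eq]
    rfl
  · rw [Matrix.one_apply_ne h, Matrix.one_apply_ne h]
    rfl

omit [Algebra K K'] in
/-- The identity is supported at the bad places. -/
theorem isBad_one930 (Dt : L2Data K K') : Dt.IsBad 1 :=
  ⟨fun w => trivAtInf_one930 w, fun v _ => trivAtFin_one930 v⟩

variable {ℓ : ℕ} {Φ : HeckeEigensystem K' ℂ} {Dt : L2Data K K'}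

theorem l2_compData930 (h : IsL2Data ℓ Φ Dt) : IsCompData (Dt.comp 1) :=
  h.comp 1 (isBad_one930 Dt)

/-- `σ` is cyclic of degree `ℓ`. -/
theorem l2_cyc930 (h : IsL2Data ℓ Φ Dt) : IsCyclicOfDegree Dt.s ℓ Dt.k := by
  have h1 : IsCyclicOfDegree Dt.s Dt.l Dt.k := (l2_compData930 h).cyc
  rw [h.deg] at h1
  exact h1

/-- `σ` fixes the elements of `K`. -/
theorem l2_fixes930 (h : IsL2Data ℓ Φ Dt) (x : K) :
    Dt.s.σ (algebraMap K K' x) = algebraMap K K' x :=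
  ((l2_cyc930 h).fixed _).1 (((l2_compData930 h).base _).2 ⟨x, rfl⟩)

theorem l2_frame930 (h : IsL2Data ℓ Φ Dt) : IsFrame5 Dt.R' := (l2_compData930 h).frame'

/-- **The base level of stable data is `σ`-stable** (ideal form). -/
theorem l2_base_stable930 (h : IsL2Data ℓ Φ Dt) (hst : Dt.IsStable) :
    Dt.𝔑₀.map (RingOfIntegers.mapRingEquiv Dt.s.σ) = Dt.𝔑₀ := by
  obtain ⟨𝔫₀, -, e⟩ := hst
  rw [e]
  exact map_level_stable_of_fixes930 Dt.s.σ (l2_fixes930 h) 𝔫₀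

/-- **`σ` preserves the frame at the base level** (`BaseStable` of helper736). -/
theorem l2_baseAut930 (h : IsL2Data ℓ Φ Dt) (hst : Dt.IsStable) :
    AutPreserves Dt.s Dt.𝔑₀ Dt.R'.μ Dt.R'.r := by
  have hT := Fermat.Agent.LT.T1.t1Out K'
  exact autPreserves_all930 hT.locComp.2.1 hT.locComp.2.2.2 Dt.s Dt.𝔑₀
    (l2_base_stable930 h hst) Dt.R'.μ (l2_frame930 h).frame.haar Dt.R'.r (l2_frame930 h).ray

theorem l2_orbit_img930 (h : IsL2Data ℓ Φ Dt) (j : ℕ) (hj : j < ℓ) :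
    ∃ j' < ℓ, finImg930 Dt.s (Dt.o j) = Dt.o j' :=
  orbit_img930 Dt.s Dt.o h.orbit_rel ℓ (l2_cyc930 h).pow_eq j hj

theorem l2_orbit_pull930 (h : IsL2Data ℓ Φ Dt) (j : ℕ) (hj : j < ℓ) :
    ∃ j' < ℓ, finPull930 Dt.s.σ (Dt.o j) = Dt.o j' :=
  orbit_pull930 Dt.s Dt.o h.orbit_rel ℓ (l2_cyc930 h).pow_eq j hj

theorem l2_orbit_periodic930 (h : IsL2Data ℓ Φ Dt) (j : ℕ) : Dt.o (j + ℓ) = Dt.o j :=
  orbit_periodic930 Dt.s Dt.o h.orbit_rel ℓ (l2_cyc930 h).pow_eq j

/-- **`R(σ)` preserves the invariant cusp functions of the base level.** -/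
theorem l2_isWFn_Rsig930 (h : IsL2Data ℓ Φ Dt) (hst : Dt.IsStable) {ψ : G K' → ℂ}
    (hψ : IsWFn Dt.𝔑₀ Dt.R'.r ℓ Dt.o ψ) : IsWFn Dt.𝔑₀ Dt.R'.r ℓ Dt.o (Rsig Dt.s ψ) :=
  isWFn_Rsig930 (l2_baseAut930 h hst) ℓ Dt.o (l2_orbit_img930 h) (l2_orbit_pull930 h) hψ

/-- **`R(σ)` moves the eigen-data of the eigenfunctions of the base level.** -/
theorem l2_isEigFn_Rsig930 (h : IsL2Data ℓ Φ Dt) (hst : Dt.IsStable) {ψ : G K' → ℂ}
    {C : EigData K'} (hψ : IsEigFn Dt.𝔑₀ Dt.R'.r ℓ Dt.o ψ C) :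
    IsEigFn Dt.𝔑₀ Dt.R'.r ℓ Dt.o (Rsig Dt.s ψ) (eigMove930 Dt.s C) :=
  isEigFn_Rsig930 (l2_base_stable930 h hst) (l2_baseAut930 h hst) ℓ Dt.o (l2_orbit_img930 h)
    (l2_orbit_pull930 h) hψ

/-- **`R(σ)` is unitary on the invariant cusp functions of the base level.** -/
theorem l2_innerD_Rsig930 (h : IsL2Data ℓ Φ Dt) (hst : Dt.IsStable) {ψ χ : G K' → ℂ}
    (hψ : IsWFn Dt.𝔑₀ Dt.R'.r ℓ Dt.o ψ) (hχ : IsWFn Dt.𝔑₀ Dt.R'.r ℓ Dt.o χ) :
    innerD Dt.R'.μ Dt.R'.F (Rsig Dt.s ψ) (Rsig Dt.s χ) = innerD Dt.R'.μ Dt.R'.F ψ χ :=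
  innerD_Rsig_cusp930 (l2_frame930 h).frame (l2_baseAut930 h hst) hψ.cusp hχ.cusp

/-- The set `S'` of stable data is `σ`-stable. -/
theorem l2_mem_S'_pull930 (h : IsL2Data ℓ Φ Dt) (hst : Dt.IsStable)
    (w : HeightOneSpectrum (𝓞 K')) : finPull930 Dt.s.σ w ∈ Dt.S' ↔ w ∈ Dt.S' := by
  rw [h.mem_S', h.mem_S']
  exact dvd_finPull930_iff Dt.s (l2_base_stable930 h hst) w

theorem l2_mem_S'_img930 (h : IsL2Data ℓ Φ Dt) (hst : Dt.IsStable)
    (w : HeightOneSpectrum (𝓞 K')) : finImg930 Dt.s w ∈ Dt.S' ↔ w ∈ Dt.S' := by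
  have h1 := l2_mem_S'_pull930 h hst (finImg930 Dt.s w)
  have h2 : finPull930 Dt.s.σ (finImg930 Dt.s w) = w := finPull930_symm Dt.s.σ w
  rw [h2] at h1
  exact h1.symm

/-- **`σ` preserves the elements supported at the bad places.** -/
theorem l2_isBad_onG930 (h : IsL2Data ℓ Φ Dt) (hst : Dt.IsStable) {g : G K'}
    (hg : Dt.IsBad g) : Dt.IsBad (Dt.s.onG g) := by
  refine ⟨fun w => ?_, fun v hv => ?_⟩
  · rw [trivAtInf_onG930]
    exact hg.1 _
  · rw [trivAtFin_onG930]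
    refine hg.2 _ ?_
    rcases hv with hv | ⟨j, hj, rfl⟩
    · exact Or.inl (fun hm => hv ((l2_mem_S'_pull930 h hst v).1 hm))
    · obtain ⟨j', hj', e⟩ := l2_orbit_pull930 h j (h.deg ▸ hj)
      exact Or.inr ⟨j', h.deg.symm ▸ hj', e⟩

/-- The double coset operator of `σ(g)`. -/
theorem l2_isDblCosetSystem_onG930 (h : IsL2Data ℓ Φ Dt) (hst : Dt.IsStable) (g : G K')
    (H : Finset (G K')) (hH : IsDblCosetSystem Dt.𝔑₀ g H) :
    IsDblCosetSystem Dt.𝔑₀ (Dt.s.onG g) (imgSet930 Dt.s H) :=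
  isDblCosetSystem_onG930 Dt.s (l2_baseAut930 h hst).level g H hH

/-! ## 6. The class of `Φ` is `σ`-stable -/

omit [NumberField K] [NumberField K'] in
/-- A place of `K'` and its image under an automorphism fixing `K` lie over the same place of
`K`. -/
theorem placeOver_finPull930 (σ : K' ≃+* K')
    (hσ : ∀ x : K, σ (algebraMap K K' x) = algebraMap K K' x) (v : HeightOneSpectrum (𝓞 K))
    (w : HeightOneSpectrum (𝓞 K')) (h : PlaceOver K K' v w) :
    PlaceOver K K' v (finPull930 σ w) := by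
  intro x y hxy
  have h1 : ((RingOfIntegers.mapRingEquiv σ y : 𝓞 K') : K') = algebraMap K K' (x : K) := by
    show σ (y : K') = _
    rw [hxy]
    exact hσ _
  rw [h x (RingOfIntegers.mapRingEquiv σ y) h1]
  rfl

omit [NumberField K] [NumberField K'] in
/-- Every place of `K'` lies over a place of `K`. -/
theorem exists_placeUnder930 (w : HeightOneSpectrum (𝓞 K')) :
    ∃ v : HeightOneSpectrum (𝓞 K), PlaceOver K K' v w := by
  refine ⟨HeightOneSpectrum.under (𝓞 K) w, ?_⟩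
  intro x y hxy
  have hy : y = algebraMap (𝓞 K) (𝓞 K') x := by
    apply NumberField.RingOfIntegers.ext
    rw [hxy]
    rfl
  rw [hy]
  rfl

/-- **The class of `Φ` is `σ`-stable**: if `C` agrees with `Φ` outside `S'`, so does `C ∘ σ⁻¹`. -/
theorem l2_agreeOut_move930 (h : IsL2Data ℓ Φ Dt) (hst : Dt.IsStable) {C : EigData K'}
    (hC : C.AgreeOut Dt.S' (eigOf Φ)) : (eigMove930 Dt.s C).AgreeOut Dt.S' (eigOf Φ) := by
  refine ⟨fun w hw => ?_, fun w d hd => hC.2 _ d hd⟩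
  have hw' : finPull930 Dt.s.σ w ∉ Dt.S' := fun hm => hw ((l2_mem_S'_pull930 h hst w).1 hm)
  obtain ⟨v, hv⟩ := exists_placeUnder930 (K := K) w
  have hc := h.const (finPull930 Dt.s.σ w) hw' w hw v
    (placeOver_finPull930 Dt.s.σ (l2_fixes930 h) v w hv) hv
  have h1 := hC.1 (finPull930 Dt.s.σ w) hw'
  exact ⟨h1.1.trans hc.1, h1.2.trans hc.2⟩

/-- The converse: `C` agrees with `Φ` outside `S'` if `C ∘ σ⁻¹` does. -/
theorem l2_agreeOut_of_move930 (h : IsL2Data ℓ Φ Dt) (hst : Dt.IsStable) {C : EigData K'}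
    (hC : (eigMove930 Dt.s C).AgreeOut Dt.S' (eigOf Φ)) : C.AgreeOut Dt.S' (eigOf Φ) := by
  refine ⟨fun w hw => ?_, fun w d hd => ?_⟩
  · have hw' : finImg930 Dt.s w ∉ Dt.S' := fun hm => hw ((l2_mem_S'_img930 h hst w).1 hm)
    obtain ⟨v, hv⟩ := exists_placeUnder930 (K := K) (finImg930 Dt.s w)
    have h2 : finPull930 Dt.s.σ (finImg930 Dt.s w) = w := finPull930_symm Dt.s.σ w
    have hv' : PlaceOver K K' v w := by
      have := placeOver_finPull930 Dt.s.σ (l2_fixes930 h) v _ hv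
      rw [h2] at this
      exact this
    have hc := h.const (finImg930 Dt.s w) hw' w hw v hv hv'
    have h1 := hC.1 (finImg930 Dt.s w) hw'
    have e1 : (eigMove930 Dt.s C).a (finImg930 Dt.s w) = C.a w := by
      show C.a (finPull930 Dt.s.σ (finImg930 Dt.s w)) = C.a w
      rw [h2]
    have e2 : (eigMove930 Dt.s C).b (finImg930 Dt.s w) = C.b w := by
      show C.b (finPull930 Dt.s.σ (finImg930 Dt.s w)) = C.b w
      rw [h2]
    rw [e1, e2] at h1
    exact ⟨h1.1.trans hc.1, h1.2.trans hc.2⟩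
  · have h1 := hC.2 (infImg930 Dt.s w) d hd
    have e1 : (eigMove930 Dt.s C).m (infImg930 Dt.s w) d = C.m w d := by
      show C.m (infPull930 Dt.s.σ (infImg930 Dt.s w)) d = C.m w d
      rw [infPull930_symm]
    rw [e1] at h1
    exact h1

/-! ## 7. The diagonal coefficients on the eigenfunctions of the base level -/

theorem l2_genMove_out930 (h : IsL2Data ℓ Φ Dt) (hst : Dt.IsStable) (x : Gen K') :
    (genMove930 Dt.s x).Out Dt.S' ↔ x.Out Dt.S' :=
  genMove_out930 Dt.s Dt.S' (l2_mem_S'_pull930 h hst) x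

/-- **(OP-up) after `R(σ)`**: on an eigenfunction `ψ` of the base level with eigen-data `C`,
`R(φ' g X k m) R(σ) ψ = X(σC) · c_g(σC) · [U g U] Z^k 𝒰^m R(σ) ψ`, `σC = C ∘ σ⁻¹`. -/
theorem l2_op_up_Rsig930 (h : IsL2Data ℓ Φ Dt) (hst : Dt.IsStable) (g : G K')
    (X : List (Gen K')) (k : ℤ) (m : ℕ) (hg : Dt.IsBad g) (hX : ∀ x ∈ X, x.Out Dt.S')
    {ψ : G K' → ℂ} {C : EigData K'} (hψ : IsEigFn Dt.𝔑₀ Dt.R'.r ℓ Dt.o ψ C)
    (Hg H : Finset (G K')) (z : G K') (hHg : IsDblCosetSystem Dt.𝔑₀ g Hg)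
    (hH : IsIwCosetSystem (Dt.o 0) H) (hz : IsScalarUniformizerAt (Dt.o 0) z) (x : G K') :
    Rconv Dt.R'.μ (Dt.φ' g X k m) (Rsig Dt.s ψ) x
      = wordEv X (eigMove930 Dt.s C) * Dt.c g (eigMove930 Dt.s C)
        * cosetOp Hg (shiftOp z k ((iwOp (Dt.o 0) H)^[m] (Rsig Dt.s ψ))) x :=
  h.op_up g X k m hg hX (Rsig Dt.s ψ) (eigMove930 Dt.s C) (l2_isEigFn_Rsig930 h hst hψ) Hg H z
    hHg hH hz x

/-- **The diagonal coefficient** of an eigenfunction `ψ` of the base level with eigen-data `C`: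
`⟨R(φ' g X k m) R(σ) ψ, ψ⟩ = X(σC) · c_g(σC) · ⟨[U g U] Z^k 𝒰^m R(σ) ψ, ψ⟩`. -/
theorem l2_diagCoeff930 (h : IsL2Data ℓ Φ Dt) (hst : Dt.IsStable) (g : G K')
    (X : List (Gen K')) (k : ℤ) (m : ℕ) (hg : Dt.IsBad g) (hX : ∀ x ∈ X, x.Out Dt.S')
    {ψ : G K' → ℂ} {C : EigData K'} (hψ : IsEigFn Dt.𝔑₀ Dt.R'.r ℓ Dt.o ψ C)
    (Hg H : Finset (G K')) (z : G K') (hHg : IsDblCosetSystem Dt.𝔑₀ g Hg)
    (hH : IsIwCosetSystem (Dt.o 0) H) (hz : IsScalarUniformizerAt (Dt.o 0) z) :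
    diagCoeff Dt.s Dt.R'.μ Dt.R'.F (Dt.φ' g X k m) ψ
      = wordEv X (eigMove930 Dt.s C) * Dt.c g (eigMove930 Dt.s C)
        * innerD Dt.R'.μ Dt.R'.F
            (cosetOp Hg (shiftOp z k ((iwOp (Dt.o 0) H)^[m] (Rsig Dt.s ψ)))) ψ := by
  show (∫ x in Dt.R'.F, Rconv Dt.R'.μ (Dt.φ' g X k m) (Rsig Dt.s ψ) x * conj (ψ x) ∂Dt.R'.μ)
    = wordEv X (eigMove930 Dt.s C) * Dt.c g (eigMove930 Dt.s C)
      * ∫ x in Dt.R'.F, cosetOp Hg (shiftOp z k ((iwOp (Dt.o 0) H)^[m] (Rsig Dt.s ψ))) x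
          * conj (ψ x) ∂Dt.R'.μ
  rw [← MeasureTheory.integral_const_mul]
  refine MeasureTheory.integral_congr_ae (Filter.Eventually.of_forall fun x => ?_)
  show Rconv Dt.R'.μ (Dt.φ' g X k m) (Rsig Dt.s ψ) x * conj (ψ x) = _
  rw [l2_op_up_Rsig930 h hst g X k m hg hX hψ Hg H z hHg hH hz x]
  ring

/-- **The conjugation formula at the base level**: `R(σ) [U g U] Z^k 𝒰_{o 0}^m
= [U σ(g) U] Z_σ^k 𝒰_{o 1}^m R(σ)`, the systems of representatives being moved by `σ`. -/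
theorem l2_Rsig_word930 (h : IsL2Data ℓ Φ Dt) (Hg H : Finset (G K')) (z : G K') (k : ℤ)
    (m : ℕ) (ψ : G K' → ℂ) :
    Rsig Dt.s (cosetOp Hg (shiftOp z k ((iwOp (Dt.o 0) H)^[m] ψ)))
      = cosetOp (imgSet930 Dt.s Hg) (shiftOp (Dt.s.onG z) k
          ((iwOp (Dt.o 1) (imgSet930 Dt.s H))^[m] (Rsig Dt.s ψ))) := by
  rw [Rsig_word930, orbit_succ930 Dt.s Dt.o h.orbit_rel 0]

/-- The moved systems are systems of the same kind, at `σ(g)` and at the place `o 1`. -/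
theorem l2_systems_onG930 (h : IsL2Data ℓ Φ Dt) (hst : Dt.IsStable) {g : G K'}
    {Hg H : Finset (G K')} {z : G K'} (hHg : IsDblCosetSystem Dt.𝔑₀ g Hg)
    (hH : IsIwCosetSystem (Dt.o 0) H) (hz : IsScalarUniformizerAt (Dt.o 0) z) :
    IsDblCosetSystem Dt.𝔑₀ (Dt.s.onG g) (imgSet930 Dt.s Hg) ∧
      IsIwCosetSystem (Dt.o 1) (imgSet930 Dt.s H) ∧
      IsScalarUniformizerAt (Dt.o 1) (Dt.s.onG z) := by
  have e := orbit_succ930 Dt.s Dt.o h.orbit_rel 0
  refine ⟨l2_isDblCosetSystem_onG930 h hst g Hg hHg, ?_, ?_⟩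
  · have := isIwCosetSystem_onG930 Dt.s (Dt.o 0) H hH
    rw [e] at this
    exact this
  · have := isScalarUniformizerAt_onG930 Dt.s (Dt.o 0) z hz
    rw [e] at this
    exact this

end L2

end Fermat.Agent.LT.T7.H930
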