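import Mathlib
import Fermat.Agent.LT.T7.H930.RsigL2
import Fermat.Agent.LT.T7.H736.SpecUp

/-!
# Row LT, asset T7.M3 (helper930): `R(σ)` for BASE-STABLE data (vocabulary of helper736)

OFF-MAIN.  ADDITIVE to `T7/H930/RsigL2.lean` (asset T7.M2, unchanged).  Vocabulary:
`T7/H736/SpecUp.lean` (helper736@c1525b2e3, sha256 faf14765e064a5d6: `BaseStable`, `SupplyCS`,
`SpecUpCS`, `ExpUpC`, `NonVanC`), `T7/Level2.lean`, `T7/Level2S.lean` (helper797); byte-identical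
copies.  UNCONDITIONAL.

## For ALL data of level 2 (no stability hypothesis)

* `l2_dvd_pull930`, `l2_mem_S'_pull_all930` : the prime divisors of `𝔑₀` (= the set `S'`) are
  `σ`-stable (because `S'` is also the set of the prime divisors of `𝔑_1 = (𝔫 1) 𝒪_{K'}`);
* `l2_isBad_onG_all930` : `σ` preserves the elements supported at the bad places;
* **`l2_agreeOut_move_all930`** : the class of `Φ` is `σ`-stable;
* `l2_isCuspFn_Rsig930` : `R(σ)` preserves the cusp functions of level `𝔑_g`.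

## For base-stable data (`hB : SU736.BaseStable Dt`)

* `l2B_isWFn_Rsig930`, `l2B_isWFn_RsigInv930` : `R(σ)`, `R(σ)⁻¹` preserve `W₀ = IsWFn 𝔑₀`;
* `l2B_isEigFn_Rsig930` : eigen-data `C ↦ C ∘ σ⁻¹`; **`l2B_class_Rsig930`** : `R(σ)` preserves
  the class space of `Φ` (`IsEigFn … ψ (eigOf Φ) → IsEigFn … (R(σ) ψ) (eigOf Φ)`);
* `l2B_innerD_Rsig930` : `R(σ)` is unitary on `W₀`;
* **`l2B_orth_Rsig930`** : `R(σ)` preserves `W₀^⊥`; **`l2B_zero_out930`** : THE FIELD `zero_out`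
  of `SU736.IsUpBasis`: `ψ ⊥ W₀ ⇒ diagCoeff (φ' g X k m) ψ = 0` (`kill_up`);
* `l2B_op_up_Rsig930`, `l2B_diagCoeff930` :
  `⟨R(φ' g X k m) R(σ) ψ, ψ⟩ = X(σC) · c_g(σC) · ⟨[U g U] Z^k 𝒰^m R(σ) ψ, ψ⟩`;
* `l2B_systems_onG930` : the systems of representatives moved by `σ`.

## Bridges (helper797 `Level2S.lean` ↔ helper736 `SpecUp.lean`)

* `baseStable_of_isStable930 : IsL2Data ℓ Φ Dt → Dt.IsStable → BaseStable Dt`;
* `supplyCS_of_supplySC930 : SupplySC P K K' → SupplyCS P K K'`;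
* `specUpSC_of_specUpCS930 : SpecUpCS K K' → SpecUpSC K K'`;
* `traceWordsRegP_of_nodes930 : SupplySC → ExpUpC → NonVanC → SpecDownC → SpecIdC
  → TraceWordsRegP P K K'`.
-/

set_option autoImplicit false

open AutomorphicForm IsDedekindDomain NumberField MeasureTheory
open scoped MatrixGroups ComplexConjugate

noncomputable section

namespace Fermat.Agent.LT.T7.H930

open Fermat.Agent.LT.H556 Fermat.Agent.LT.H556.A0 Fermat.Agent.LT.T1.H930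
open Fermat.Agent.LT.T7 Fermat.Agent.LT.T5

attribute [local instance] Fermat.Agent.LT.T5.instMeasurableSpaceG

/-! ## 1. One field -/

section OneField

variable {K : Type} [Field K] [NumberField K]

/-- `IsEigFn` only depends on the eigen-data at the places prime to the level and at the
positive radii. -/
theorem isEigFn_congr930 {𝔫 : Ideal (𝓞 K)} {r : G K} {l : ℕ} {o : ℕ → HeightOneSpectrum (𝓞 K)}
    {ψ : G K → ℂ} {C C' : EigData K} (h : IsEigFn 𝔫 r l o ψ C)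
    (hab : ∀ v : HeightOneSpectrum (𝓞 K), ¬ v.asIdeal ∣ 𝔫 → C.a v = C'.a v ∧ C.b v = C'.b v)
    (hm : ∀ (w : InfinitePlace K) (d : ℝ), 0 < d → C.m w d = C'.m w d) :
    IsEigFn 𝔫 r l o ψ C' where
  inv := h.inv
  hecke v hv := by
    rw [← (hab v hv).1, ← (hab v hv).2]
    exact h.hecke v hv
  mean w := by
    intro d hd Y hY g
    rw [← hm w d hd]
    exact h.mean w d hd Y hY g

/-- `isEigFn_Rsig930` with the stability of the divisors of the level as hypothesis. -/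
theorem isEigFn_Rsig_of_dvd930 {s : AdelicAut K} {𝔫 : Ideal (𝓞 K)} {μ : Measure (G K)}
    {r : G K}
    (hdvd : ∀ v : HeightOneSpectrum (𝓞 K), (finPull930 s.σ v).asIdeal ∣ 𝔫 ↔ v.asIdeal ∣ 𝔫)
    (hP : AutPreserves s 𝔫 μ r) (l : ℕ) (o : ℕ → HeightOneSpectrum (𝓞 K))
    (h₁ : ∀ j < l, ∃ j' < l, finImg930 s (o j) = o j')
    (h₂ : ∀ j < l, ∃ j' < l, finPull930 s.σ (o j) = o j') {ψ : G K → ℂ} {C : EigData K}
    (h : IsEigFn 𝔫 r l o ψ C) : IsEigFn 𝔫 r l o (Rsig s ψ) (eigMove930 s C) where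
  inv := isWFn_Rsig930 hP l o h₁ h₂ h.inv
  hecke v hv :=
    (isHeckeEigenAt_Rsig930 s (placeRel_finPull_self930 s v) ψ _ _).2
      (h.hecke _ (fun hd => hv ((hdvd v).1 hd)))
  mean w := by
    have hinv : ∀ k : G K, IsArchCompact (infPull930 s.σ w) k → ∀ g : G K, ψ (g * k) = ψ g := by
      intro k hk g
      have := h.inv.cusp.aut.arch_compact _ k hk g
      rw [this]
      exact one_mul _
    have h1 := (meanEigC_Rsig930 s (infPull930 s.σ w) ψ hinv (C.m (infPull930 s.σ w))).2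
      ((meanEig_iff930 _ _ _).1 (h.mean (infPull930 s.σ w)))
    rw [infImg930_pull] at h1
    exact (meanEig_iff930 _ _ _).2 h1

/-- `R(σ)⁻¹` preserves the invariant cusp functions. -/
theorem isWFn_RsigInv930 {s : AdelicAut K} {𝔫 : Ideal (𝓞 K)} {μ : Measure (G K)} {r : G K}
    (hP : AutPreserves s 𝔫 μ r) (l : ℕ) (o : ℕ → HeightOneSpectrum (𝓞 K))
    (h₁ : ∀ j < l, ∃ j' < l, finImg930 s (o j) = o j')
    (h₂ : ∀ j < l, ∃ j' < l, finPull930 s.σ (o j) = o j') {ψ : G K → ℂ}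
    (h : IsWFn 𝔫 r l o ψ) : IsWFn 𝔫 r l o (Rsig (invAut930 s) ψ) :=
  isWFn_Rsig930 (autPreserves_invAut930 hP) l o h₂ h₁ h

end OneField

/-! ## 2. The data of level 2 with `BaseStable` (vocabulary of helper736) -/

section L2

open Fermat.Agent.LT.T7.SU736

variable {K K' : Type} [Field K] [NumberField K] [Field K'] [NumberField K'] [Algebra K K']
variable {ℓ : ℕ} {Φ : HeckeEigensystem K' ℂ} {Dt : L2Data K K'}

/-- The level `𝔑_1 = (𝔫 1) 𝒪_{K'}` is `σ`-stable. -/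
theorem l2_level_one_stable930 (h : IsL2Data ℓ Φ Dt) :
    (Dt.𝔑 1).map (RingOfIntegers.mapRingEquiv Dt.s.σ) = Dt.𝔑 1 :=
  map_level_stable_of_fixes930 Dt.s.σ (l2_fixes930 h) (Dt.𝔫 1)

/-- **The set of the prime divisors of the base level is `σ`-stable**, for ALL data of level 2
(no stability hypothesis: `S'` is also the set of the prime divisors of `𝔑_1`). -/
theorem l2_dvd_pull930 (h : IsL2Data ℓ Φ Dt) (v : HeightOneSpectrum (𝓞 K')) :
    (finPull930 Dt.s.σ v).asIdeal ∣ Dt.𝔑₀ ↔ v.asIdeal ∣ Dt.𝔑₀ := by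
  rw [← h.mem_S', ← h.mem_S', h.mem_S'_g 1 (isBad_one930 Dt), h.mem_S'_g 1 (isBad_one930 Dt)]
  exact dvd_finPull930_iff Dt.s (l2_level_one_stable930 h) v

/-- The set `S'` is `σ`-stable, for ALL data of level 2. -/
theorem l2_mem_S'_pull_all930 (h : IsL2Data ℓ Φ Dt) (w : HeightOneSpectrum (𝓞 K')) :
    finPull930 Dt.s.σ w ∈ Dt.S' ↔ w ∈ Dt.S' := by
  rw [h.mem_S', h.mem_S']
  exact l2_dvd_pull930 h w

theorem l2_mem_S'_img_all930 (h : IsL2Data ℓ Φ Dt) (w : HeightOneSpectrum (𝓞 K')) :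
    finImg930 Dt.s w ∈ Dt.S' ↔ w ∈ Dt.S' := by
  have h1 := l2_mem_S'_pull_all930 h (finImg930 Dt.s w)
  have h2 : finPull930 Dt.s.σ (finImg930 Dt.s w) = w := finPull930_symm Dt.s.σ w
  rw [h2] at h1
  exact h1.symm

/-- `σ` preserves the elements supported at the bad places, for ALL data of level 2. -/
theorem l2_isBad_onG_all930 (h : IsL2Data ℓ Φ Dt) {g : G K'} (hg : Dt.IsBad g) :
    Dt.IsBad (Dt.s.onG g) := by
  refine ⟨fun w => ?_, fun v hv => ?_⟩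
  · rw [trivAtInf_onG930]
    exact hg.1 _
  · rw [trivAtFin_onG930]
    refine hg.2 _ ?_
    rcases hv with hv | ⟨j, hj, rfl⟩
    · exact Or.inl (fun hm => hv ((l2_mem_S'_pull_all930 h v).1 hm))
    · obtain ⟨j', hj', e⟩ := l2_orbit_pull930 h j (h.deg ▸ hj)
      exact Or.inr ⟨j', h.deg.symm ▸ hj', e⟩

/-- `Dt.IsStable` (helper797) implies `BaseStable` (helper736). -/
theorem baseStable_of_isStable930 (h : IsL2Data ℓ Φ Dt) (hst : Dt.IsStable) : BaseStable Dt :=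
  l2_baseAut930 h hst

/-- **`R(σ)` preserves the invariant cusp functions of the base level.** -/
theorem l2B_isWFn_Rsig930 (h : IsL2Data ℓ Φ Dt) (hB : BaseStable Dt) {ψ : G K' → ℂ}
    (hψ : IsWFn Dt.𝔑₀ Dt.R'.r ℓ Dt.o ψ) : IsWFn Dt.𝔑₀ Dt.R'.r ℓ Dt.o (Rsig Dt.s ψ) :=
  isWFn_Rsig930 hB ℓ Dt.o (l2_orbit_img930 h) (l2_orbit_pull930 h) hψ

/-- **`R(σ)⁻¹` preserves the invariant cusp functions of the base level.** -/
theorem l2B_isWFn_RsigInv930 (h : IsL2Data ℓ Φ Dt) (hB : BaseStable Dt) {ψ : G K' → ℂ}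
    (hψ : IsWFn Dt.𝔑₀ Dt.R'.r ℓ Dt.o ψ) :
    IsWFn Dt.𝔑₀ Dt.R'.r ℓ Dt.o (Rsig (invAut930 Dt.s) ψ) :=
  isWFn_RsigInv930 hB ℓ Dt.o (l2_orbit_img930 h) (l2_orbit_pull930 h) hψ

/-- **`R(σ)` moves the eigen-data of the eigenfunctions of the base level.** -/
theorem l2B_isEigFn_Rsig930 (h : IsL2Data ℓ Φ Dt) (hB : BaseStable Dt) {ψ : G K' → ℂ}
    {C : EigData K'} (hψ : IsEigFn Dt.𝔑₀ Dt.R'.r ℓ Dt.o ψ C) :
    IsEigFn Dt.𝔑₀ Dt.R'.r ℓ Dt.o (Rsig Dt.s ψ) (eigMove930 Dt.s C) :=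
  isEigFn_Rsig_of_dvd930 (l2_dvd_pull930 h) hB ℓ Dt.o (l2_orbit_img930 h) (l2_orbit_pull930 h)
    hψ

/-- **`R(σ)` is unitary on the invariant cusp functions of the base level.** -/
theorem l2B_innerD_Rsig930 (h : IsL2Data ℓ Φ Dt) (hB : BaseStable Dt) {ψ χ : G K' → ℂ}
    (hψ : IsWFn Dt.𝔑₀ Dt.R'.r ℓ Dt.o ψ) (hχ : IsWFn Dt.𝔑₀ Dt.R'.r ℓ Dt.o χ) :
    innerD Dt.R'.μ Dt.R'.F (Rsig Dt.s ψ) (Rsig Dt.s χ) = innerD Dt.R'.μ Dt.R'.F ψ χ :=
  innerD_Rsig_cusp930 (l2_frame930 h).frame hB hψ.cusp hχ.cusp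

/-- **The class of `Φ` is `σ`-stable**, for ALL data of level 2. -/
theorem l2_agreeOut_move_all930 (h : IsL2Data ℓ Φ Dt) {C : EigData K'}
    (hC : C.AgreeOut Dt.S' (eigOf Φ)) : (eigMove930 Dt.s C).AgreeOut Dt.S' (eigOf Φ) := by
  refine ⟨fun w hw => ?_, fun w d hd => hC.2 _ d hd⟩
  have hw' : finPull930 Dt.s.σ w ∉ Dt.S' := fun hm => hw ((l2_mem_S'_pull_all930 h w).1 hm)
  obtain ⟨v, hv⟩ := exists_placeUnder930 (K := K) w
  have hc := h.const (finPull930 Dt.s.σ w) hw' w hw v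
    (placeOver_finPull930 Dt.s.σ (l2_fixes930 h) v w hv) hv
  have h1 := hC.1 (finPull930 Dt.s.σ w) hw'
  exact ⟨h1.1.trans hc.1, h1.2.trans hc.2⟩

/-- **`R(σ)` preserves the class space of `Φ` at the base level.** -/
theorem l2B_class_Rsig930 (h : IsL2Data ℓ Φ Dt) (hB : BaseStable Dt) {ψ : G K' → ℂ}
    (hψ : IsEigFn Dt.𝔑₀ Dt.R'.r ℓ Dt.o ψ (eigOf Φ)) :
    IsEigFn Dt.𝔑₀ Dt.R'.r ℓ Dt.o (Rsig Dt.s ψ) (eigOf Φ) := by
  have h1 := l2B_isEigFn_Rsig930 h hB hψ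
  have h2 : (eigMove930 Dt.s (eigOf Φ)).AgreeOut Dt.S' (eigOf Φ) :=
    l2_agreeOut_move_all930 h ⟨fun _ _ => ⟨rfl, rfl⟩, fun _ _ _ => rfl⟩
  refine isEigFn_congr930 h1 (fun v hv => ?_) (fun w d hd => h2.2 w d hd)
  exact h2.1 v (fun hm => hv ((h.mem_S' v).1 hm))

/-- **(OP-up) after `R(σ)`**, for base-stable data. -/
theorem l2B_op_up_Rsig930 (h : IsL2Data ℓ Φ Dt) (hB : BaseStable Dt) (g : G K')
    (X : List (Gen K')) (k : ℤ) (m : ℕ) (hg : Dt.IsBad g) (hX : ∀ x ∈ X, x.Out Dt.S')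
    {ψ : G K' → ℂ} {C : EigData K'} (hψ : IsEigFn Dt.𝔑₀ Dt.R'.r ℓ Dt.o ψ C)
    (Hg H : Finset (G K')) (z : G K') (hHg : IsDblCosetSystem Dt.𝔑₀ g Hg)
    (hH : IsIwCosetSystem (Dt.o 0) H) (hz : IsScalarUniformizerAt (Dt.o 0) z) (x : G K') :
    Rconv Dt.R'.μ (Dt.φ' g X k m) (Rsig Dt.s ψ) x
      = wordEv X (eigMove930 Dt.s C) * Dt.c g (eigMove930 Dt.s C)
        * cosetOp Hg (shiftOp z k ((iwOp (Dt.o 0) H)^[m] (Rsig Dt.s ψ))) x :=
  h.op_up g X k m hg hX (Rsig Dt.s ψ) (eigMove930 Dt.s C) (l2B_isEigFn_Rsig930 h hB hψ) Hg H z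
    hHg hH hz x

/-- **The diagonal coefficient** of an eigenfunction of the base level, for base-stable data:
`⟨R(φ' g X k m) R(σ) ψ, ψ⟩ = X(σC) · c_g(σC) · ⟨[U g U] Z^k 𝒰^m R(σ) ψ, ψ⟩`. -/
theorem l2B_diagCoeff930 (h : IsL2Data ℓ Φ Dt) (hB : BaseStable Dt) (g : G K')
    (X : List (Gen K')) (k : ℤ) (m : ℕ) (hg : Dt.IsBad g) (hX : ∀ x ∈ X, x.Out Dt.S')
    {ψ : G K' → ℂ} {C : EigData K'} (hψ : IsEigFn Dt.𝔑₀ Dt.R'.r ℓ Dt.o ψ C)
    (Hg H : Finset (G K')) (z : G K') (hHg : IsDblCosetSystem Dt.𝔑₀ g Hg)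
    (hH : IsIwCosetSystem (Dt.o 0) H) (hz : IsScalarUniformizerAt (Dt.o 0) z) :
    diagCoeff Dt.s Dt.R'.μ Dt.R'.F (Dt.φ' g X k m) ψ
      = wordEv X (eigMove930 Dt.s C) * Dt.c g (eigMove930 Dt.s C)
        * innerD Dt.R'.μ Dt.R'.F
            (cosetOp Hg (shiftOp z k ((iwOp (Dt.o 0) H)^[m] (Rsig Dt.s ψ)))) ψ := by
  show (∫ x in Dt.R'.F, Rconv Dt.R'.μ (Dt.φ' g X k m) (Rsig Dt.s ψ) x * conj (ψ x) ∂Dt.R'.μ)
    = wordEv X (eigMove930 Dt.s C) * Dt.c g (eigMove930 Dt.s C)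
      * ∫ x in Dt.R'.F, cosetOp Hg (shiftOp z k ((iwOp (Dt.o 0) H)^[m] (Rsig Dt.s ψ))) x
          * conj (ψ x) ∂Dt.R'.μ
  rw [← MeasureTheory.integral_const_mul]
  refine MeasureTheory.integral_congr_ae (Filter.Eventually.of_forall fun x => ?_)
  show Rconv Dt.R'.μ (Dt.φ' g X k m) (Rsig Dt.s ψ) x * conj (ψ x) = _
  rw [l2B_op_up_Rsig930 h hB g X k m hg hX hψ Hg H z hHg hH hz x]
  ring

/-- `R(σ)` preserves the cusp functions of the level `𝔑_g`, `g` bad. -/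
theorem l2_isCuspFn_Rsig930 (h : IsL2Data ℓ Φ Dt) {g : G K'} (hg : Dt.IsBad g)
    {ψ : G K' → ℂ} (hψ : IsCuspFn (Dt.𝔑 g) trivType Dt.R'.r ψ) :
    IsCuspFn (Dt.𝔑 g) trivType Dt.R'.r (Rsig Dt.s ψ) :=
  isCuspFn_Rsig930 (h.comp g hg).aut (trivType_invariant930 Dt.s) hψ

/-- **`R(σ)` preserves the orthogonal complement of the invariant cusp functions.** -/
theorem l2B_orth_Rsig930 (h : IsL2Data ℓ Φ Dt) (hB : BaseStable Dt) {g : G K'}
    {ψ : G K' → ℂ} (hψ : IsCuspFn (Dt.𝔑 g) trivType Dt.R'.r ψ)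
    (horth : ∀ χ : G K' → ℂ, IsWFn Dt.𝔑₀ Dt.R'.r ℓ Dt.o χ →
      innerD Dt.R'.μ Dt.R'.F ψ χ = 0)
    (χ : G K' → ℂ) (hχ : IsWFn Dt.𝔑₀ Dt.R'.r ℓ Dt.o χ) :
    innerD Dt.R'.μ Dt.R'.F (Rsig Dt.s ψ) χ = 0 := by
  have hχ' := l2B_isWFn_RsigInv930 h hB hχ
  have h1 := innerD_Rsig930 (l2_frame930 h).frame hB hψ.cont hχ'.cusp.cont hψ.aut.left_inv
    hχ'.cusp.aut.left_inv
  rw [Rsig_Rsig_invAut930] at h1
  rw [h1]
  exact horth _ hχ'

/-- **The field `zero_out` of `IsUpBasis`**: the diagonal coefficient of a cusp function of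
level `𝔑_g` orthogonal to the invariant cusp functions of the base level vanishes. -/
theorem l2B_zero_out930 (h : IsL2Data ℓ Φ Dt) (hB : BaseStable Dt) {g : G K'}
    (hg : Dt.IsBad g) (X : List (Gen K')) (k : ℤ) (m : ℕ) (hX : ∀ x ∈ X, x.Out Dt.S')
    {ψ : G K' → ℂ} (hψ : IsCuspFn (Dt.𝔑 g) trivType Dt.R'.r ψ)
    (horth : ∀ χ : G K' → ℂ, IsWFn Dt.𝔑₀ Dt.R'.r ℓ Dt.o χ →
      innerD Dt.R'.μ Dt.R'.F ψ χ = 0) :
    diagCoeff Dt.s Dt.R'.μ Dt.R'.F (Dt.φ' g X k m) ψ = 0 := by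
  have hk := h.kill_up g X k m hg hX (Rsig Dt.s ψ) (l2_isCuspFn_Rsig930 h hg hψ)
    (l2B_orth_Rsig930 h hB hψ horth)
  show (∫ x in Dt.R'.F, Rconv Dt.R'.μ (Dt.φ' g X k m) (Rsig Dt.s ψ) x * conj (ψ x) ∂Dt.R'.μ) = 0
  have h0 : (fun x => Rconv Dt.R'.μ (Dt.φ' g X k m) (Rsig Dt.s ψ) x * conj (ψ x))
      = fun _ => (0 : ℂ) := by
    funext x
    rw [hk x, zero_mul]
  rw [h0, MeasureTheory.integral_zero]

/-- The moved systems, for base-stable data. -/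
theorem l2B_systems_onG930 (h : IsL2Data ℓ Φ Dt) (hB : BaseStable Dt) {g : G K'}
    {Hg H : Finset (G K')} {z : G K'} (hHg : IsDblCosetSystem Dt.𝔑₀ g Hg)
    (hH : IsIwCosetSystem (Dt.o 0) H) (hz : IsScalarUniformizerAt (Dt.o 0) z) :
    IsDblCosetSystem Dt.𝔑₀ (Dt.s.onG g) (imgSet930 Dt.s Hg) ∧
      IsIwCosetSystem (Dt.o 1) (imgSet930 Dt.s H) ∧
      IsScalarUniformizerAt (Dt.o 1) (Dt.s.onG z) := by
  have e := orbit_succ930 Dt.s Dt.o h.orbit_rel 0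
  refine ⟨isDblCosetSystem_onG930 Dt.s hB.level g Hg hHg, ?_, ?_⟩
  · have := isIwCosetSystem_onG930 Dt.s (Dt.o 0) H hH
    rw [e] at this
    exact this
  · have := isScalarUniformizerAt_onG930 Dt.s (Dt.o 0) z hz
    rw [e] at this
    exact this

end L2

/-! ## 3. Bridges between the stable forms of helper797 and of helper736 -/

section Bridges

open Fermat.Agent.LT.T7.SU736

variable {P : EKCond}
variable {K K' : Type} [Field K] [NumberField K] [Field K'] [NumberField K'] [Algebra K K']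

/-- `SupplySC` (helper797, `Level2S.lean`) implies `SupplyCS` (helper736, `SpecUp.lean`). -/
theorem supplyCS_of_supplySC930 (h : SupplySC P K K') : SupplyCS P K K' :=
  fun ℓ hcyc hℓ hcplx Φ hΦ hconst hP =>
    let ⟨Dt, hDt, hst⟩ := h ℓ hcyc hℓ hcplx Φ hΦ hconst hP
    ⟨Dt, hDt, baseStable_of_isStable930 hDt hst⟩

/-- `SpecUpCS` (helper736) implies `SpecUpSC` (helper797). -/
theorem specUpSC_of_specUpCS930 (h : SpecUpCS K K') : SpecUpSC K K' :=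
  fun ℓ hcyc hℓ hcplx Φ hΦ hconst Dt hDt hst =>
    h ℓ hcyc hℓ hcplx Φ hΦ hconst Dt hDt (baseStable_of_isStable930 hDt hst)

/-- **The assembly of level 2 from the stable supply of helper797 and the nodes of helper736.** -/
theorem traceWordsRegP_of_nodes930 (hS : SupplySC P K K') (hE : ExpUpC K K')
    (hN : NonVanC K K') (hD : SpecDownC K K') (hI : SpecIdC K K') : TraceWordsRegP P K K' :=
  Fermat.Agent.LT.T7.traceWordsRegP_ofS hS (specUpSC_of_specUpCS930 (specUpCS_of hE hN)) hD hI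

end Bridges

end Fermat.Agent.LT.T7.H930
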