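import Mathlib
import Fermat.Agent.LT.T7.H930.RsigL2B
import Fermat.Agent.LT.T7.H29.UpCore
import Fermat.Agent.LT.T2.H724.IdealCl
import Fermat.Agent.LT.H129.Local

/-!
# Row LT, asset T7.M4 (helper930): `R(σ)` on the UPSTAIRS CORE (`H29.UpData`, `H29.IsUpData`)

OFF-MAIN.  ADDITIVE (new names only).  Vocabulary of record of the node SPEC-UP (ruling of
helper797, 15:58Z): `T7/H29/UpCore.lean` (helper29@1eabae2de, sha256 c2d817fc09fbdbab) and
`T7/H736/SpecUp.lean` (helper736, faf14765e064a5d6); byte-identical copies.  The hypothesis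
`hB : T5.AutPreserves U.s U.𝔑₀ U.R'.μ U.R'.r` IS `H29.BaseStableU U` (definitionally; the file
`UpCore2.lean` is not imported).  Uses `T2/H724/IdealCl.lean` (helper724) and `H129/Local.lean`
(helper129).  UNCONDITIONAL.

## One field

* **`dvd_pull_of_level930`** : if `σ` preserves the level group `U(𝔫)` then the set of the prime
  divisors of `𝔫` is `σ`-stable (`detect_iff930`: `v ∤ 𝔫` iff some `u ∈ U(𝔫)` has a unit as upper
  right entry at `v`);
* `RsigInv_cosetOp_Rsig930`, `RsigInv_iwOp_Rsig930` : `R(σ)⁻¹ [H] R(σ) = [σ⁻¹ H]`,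
  `R(σ)⁻¹ 𝒰_w R(σ) = 𝒰_{σ⁻¹ w}` (the relations `hdown`, `hwrap` of `SU736.IsClassModel`).

## For ALL upstairs data (`h : IsUpData ℓ Φ U`)

* `up_mem_S'_pull930`, `up_dvd_pull930` : `S'` is `σ`-stable; `up_isBad_onG930`;
* `up_orbit_periodic930`, `up_orbit_img930`, `up_orbit_pull930`;
* **`up_agreeOut_move930`**, `up_agreeOut_moveInv930` : the class of `Φ` is stable under
  `σ`, `σ⁻¹`;
* `up_isCuspFn_Rsig930`, `up_isCuspONB_Rsig930` : `R(σ)` at the level `𝔑 g`.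

## For base-stable upstairs data (`hB`)

* `up_isWFn_Rsig930`, `up_isWFn_RsigInv930`, `up_isEigFn_Rsig930`, `up_innerD_Rsig930`;
* **`up_class_Rsig930`**, `up_class_RsigInv930`, **`up_isClassBasisOn_Rsig930`** : `R(σ)` is a
  unitary automorphism of the class space of `Φ` (it maps `SU736.IsClassBasisOn` to itself);
* **`up_orth_Rsig930`**, **`up_zero_out930`** : `ψ ⊥ W₀ ⇒ diagCoeff (φ' g X k m) ψ = 0`;
* `up_op_up_Rsig930`, **`up_diagCoeff930`** :
  `⟨R(φ' g X k m) R(σ) ψ, ψ⟩ = X(σC) · c_g(σC) · ⟨[U g U] Z^k 𝒰^m R(σ) ψ, ψ⟩`;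
* `up_systems_onG930`.
-/

set_option autoImplicit false

open AutomorphicForm IsDedekindDomain NumberField MeasureTheory
open scoped MatrixGroups ComplexConjugate

noncomputable section

namespace Fermat.Agent.LT.T7.H930

open Fermat.Agent.LT.H556 Fermat.Agent.LT.H556.A0 Fermat.Agent.LT.T1.H930
open Fermat.Agent.LT.T7 Fermat.Agent.LT.T5

attribute [local instance] Fermat.Agent.LT.T5.instMeasurableSpaceG

/-! ## 1. The level group detects the prime divisors of the level -/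

section Detect

variable {K : Type} [Field K] [NumberField K]

/-- The elements of `𝔫 𝒪_v` have valuation `< 1` if `v ∣ 𝔫`. -/
theorem val_lt_one_of_mem_idealClosure930 {𝔫 : Ideal (𝓞 K)} {v : HeightOneSpectrum (𝓞 K)}
    (hv : v.asIdeal ∣ 𝔫) {x : v.adicCompletion K} (hx : x ∈ idealClosure 𝔫 v) :
    Valued.v x < 1 := by
  have hcl : IsClosed {y : v.adicCompletion K | Valued.v y < 1} := by
    have h1 := Valued.isClosed_ball (v.adicCompletion K)
      (1 : MonoidWithZeroHom.ValueGroup₀ (.ofClass (Valued.v : Valuation (v.adicCompletion K) _)))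
    have e : {y : v.adicCompletion K | Valued.v y < 1}
        = {y : v.adicCompletion K | Valued.v.restrict y < 1} := by
      ext y
      exact (Valuation.restrict_lt_one_iff (Valued.v : Valuation (v.adicCompletion K) _)).symm
    rw [e]
    exact h1
  have hsub : ((fun a : 𝓞 K => algebraMap K (v.adicCompletion K) (algebraMap (𝓞 K) K a)) ''
      (𝔫 : Set (𝓞 K))) ⊆ {y : v.adicCompletion K | Valued.v y < 1} := by
    rintro _ ⟨a, ha, rfl⟩
    show Valued.v (algebraMap K (v.adicCompletion K) (algebraMap (𝓞 K) K a)) < 1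
    have h2 : Valued.v ((algebraMap (𝓞 K) K a : K) : v.adicCompletion K)
        = v.valuation K (algebraMap (𝓞 K) K a) :=
      HeightOneSpectrum.valuedAdicCompletion_eq_valuation' v _
    have h3 : Valued.v (algebraMap K (v.adicCompletion K) (algebraMap (𝓞 K) K a))
        = v.valuation K (algebraMap (𝓞 K) K a) := h2
    rw [h3, v.valuation_lt_one_iff_mem]
    exact (Ideal.dvd_iff_le.1 hv) ha
  exact closure_minimal hsub hcl hx

/-- The upper unipotent matrix with entry `1`. -/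
def unipGL930 (R : Type*) [CommRing R] : GL (Fin 2) R where
  val := !![1, 1; 0, 1]
  inv := !![1, -1; 0, 1]
  val_inv := by
    ext i j
    fin_cases i <;> fin_cases j <;> simp [Matrix.mul_apply, Fin.sum_univ_two]
  inv_val := by
    ext i j
    fin_cases i <;> fin_cases j <;> simp [Matrix.mul_apply, Fin.sum_univ_two]

open Fermat.Agent.LT.H129 in
/-- The unipotent element at `v` lies in `U(𝔫)` if `v ∤ 𝔫`. -/
theorem inLevelGroup_unip930 {𝔫 : Ideal (𝓞 K)} {v : HeightOneSpectrum (𝓞 K)}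
    (hv : ¬ v.asIdeal ∣ 𝔫) : InLevelGroup 𝔫 (locFin129 v (unipGL930 (v.adicCompletion K))) := by
  have hloc := isLocalAtFin_locFin129 v (unipGL930 (v.adicCompletion K))
  have hloc' : IsLocalAtFin v (locFin129 v (unipGL930 (v.adicCompletion K)))⁻¹ :=
    isLocalAtFin_inv129 hloc
  refine ⟨hloc.1, fun v' i j => ?_⟩
  by_cases h : v' = v
  · subst h
    refine ⟨Fermat.Agent.LT.T2.H724.mem_idealClosure_of_not_dvd724 v' 𝔫 hv ?_,
      Fermat.Agent.LT.T2.H724.mem_idealClosure_of_not_dvd724 v' 𝔫 hv ?_⟩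
    · rw [finComp_locFin129]
      show Valued.v (((!![1, 1; 0, 1] : Matrix (Fin 2) (Fin 2) (v'.adicCompletion K)) - 1) i j) ≤ 1
      fin_cases i <;> fin_cases j <;> simp
    · rw [← map_inv, finComp_locFin129]
      show Valued.v (((!![1, -1; 0, 1] : Matrix (Fin 2) (Fin 2) (v'.adicCompletion K)) - 1) i j) ≤ 1
      fin_cases i <;> fin_cases j <;> simp
  · have e1 : finComp v' (locFin129 v (unipGL930 (v.adicCompletion K))) = 1 := hloc.2 v' h
    have e2 : finComp v' (locFin129 v (unipGL930 (v.adicCompletion K)))⁻¹ = 1 := hloc'.2 v' h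
    rw [e1, e2, sub_self]
    exact ⟨Fermat.Agent.LT.T2.H724.zero_mem_idealClosure724 v' 𝔫,
      Fermat.Agent.LT.T2.H724.zero_mem_idealClosure724 v' 𝔫⟩

/-- `v ∤ 𝔫` iff some element of `U(𝔫)` has a unit as upper right entry at `v`. -/
def Detect930 (𝔫 : Ideal (𝓞 K)) (v : HeightOneSpectrum (𝓞 K)) : Prop :=
  ∃ u : G K, InLevelGroup 𝔫 u ∧ ¬ Valued.v (finComp v u 0 1) < 1

open Fermat.Agent.LT.H129 in
theorem detect_iff930 (𝔫 : Ideal (𝓞 K)) (v : HeightOneSpectrum (𝓞 K)) :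
    Detect930 𝔫 v ↔ ¬ v.asIdeal ∣ 𝔫 := by
  constructor
  · rintro ⟨u, hu, hval⟩ hdvd
    apply hval
    have h1 := (hu.2 v 0 1).1
    have h2 : (finComp v u - 1) 0 1 = finComp v u 0 1 := by
      rw [Matrix.sub_apply, Matrix.one_apply_ne (by decide), sub_zero]
    rw [h2] at h1
    exact val_lt_one_of_mem_idealClosure930 hdvd h1
  · intro hv
    refine ⟨locFin129 v (unipGL930 (v.adicCompletion K)), inLevelGroup_unip930 hv, ?_⟩
    rw [finComp_locFin129]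
    show ¬ Valued.v ((!![1, 1; 0, 1] : Matrix (Fin 2) (Fin 2) (v.adicCompletion K)) 0 1) < 1
    simp

/-- Transport of the detection by an automorphism preserving the level group. -/
theorem detect_pull930 (s : AdelicAut K) {𝔫 : Ideal (𝓞 K)}
    (hL : ∀ u : G K, InLevelGroup 𝔫 u ↔ InLevelGroup 𝔫 (s.onG u))
    (v : HeightOneSpectrum (𝓞 K)) (h : Detect930 𝔫 (finPull930 s.σ v)) : Detect930 𝔫 v := by
  obtain ⟨u, hu, hval⟩ := h
  refine ⟨s.onG u, (hL u).1 hu, ?_⟩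
  rw [onG_eq_glAdeleEquiv930, finComp_glAdeleEquiv930]
  have e : Valued.v (((finComp (finPull930 s.σ v) u).map (finMapEquiv930 s.σ v)) 0 1)
      = Valued.v (finComp (finPull930 s.σ v) u 0 1) := valued_finMapEquiv930 s.σ v _
  rw [e]
  exact hval

theorem detect_img930 (s : AdelicAut K) {𝔫 : Ideal (𝓞 K)}
    (hL : ∀ u : G K, InLevelGroup 𝔫 u ↔ InLevelGroup 𝔫 (s.onG u))
    (v : HeightOneSpectrum (𝓞 K)) (h : Detect930 𝔫 v) : Detect930 𝔫 (finPull930 s.σ v) := by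
  have hL' : ∀ u : G K, InLevelGroup 𝔫 u ↔ InLevelGroup 𝔫 ((invAut930 s).onG u) := by
    intro u
    show InLevelGroup 𝔫 u ↔ InLevelGroup 𝔫 (s.onGinv u)
    have := hL (s.onGinv u)
    rw [onG_onGinv930] at this
    exact this.symm
  have h' : Detect930 𝔫 (finPull930 (invAut930 s).σ (finPull930 s.σ v)) := by
    have e : finPull930 (invAut930 s).σ (finPull930 s.σ v) = v := finPull930_symm' s.σ v
    rw [e]
    exact h
  exact detect_pull930 (invAut930 s) hL' _ h'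

/-- **The set of the prime divisors of a level whose level group is preserved by `σ` is
`σ`-stable.** -/
theorem dvd_pull_of_level930 (s : AdelicAut K) {𝔫 : Ideal (𝓞 K)}
    (hL : ∀ u : G K, InLevelGroup 𝔫 u ↔ InLevelGroup 𝔫 (s.onG u))
    (v : HeightOneSpectrum (𝓞 K)) :
    (finPull930 s.σ v).asIdeal ∣ 𝔫 ↔ v.asIdeal ∣ 𝔫 := by
  have h1 := detect_iff930 𝔫 v
  have h2 := detect_iff930 𝔫 (finPull930 s.σ v)
  constructor
  · intro h
    by_contra hn
    exact (h2.1 (detect_img930 s hL v (h1.2 hn))) h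
  · intro h
    by_contra hn
    exact (h1.1 (detect_pull930 s hL v (h2.2 hn))) h

/-- `R(σ)⁻¹ [H] R(σ) = [σ⁻¹ H]`. -/
theorem RsigInv_cosetOp_Rsig930 (s : AdelicAut K) (H : Finset (G K)) (ψ : G K → ℂ) :
    Rsig (invAut930 s) (cosetOp H (Rsig s ψ)) = cosetOp (imgSet930 (invAut930 s) H) ψ := by
  rw [Rsig_cosetOp930, Rsig_invAut_Rsig930]

/-- `R(σ)⁻¹ 𝒰_w R(σ) = 𝒰_{σ⁻¹ w}`. -/
theorem RsigInv_iwOp_Rsig930 (s : AdelicAut K) (w : HeightOneSpectrum (𝓞 K)) (H : Finset (G K))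
    (ψ : G K → ℂ) :
    Rsig (invAut930 s) (iwOp w H (Rsig s ψ))
      = iwOp (finPull930 s.σ w) (imgSet930 (invAut930 s) H) ψ := by
  rw [Rsig_iwOp930, Rsig_invAut_Rsig930]
  rfl

/-- The stability of the prime divisors passes to the inverse automorphism. -/
theorem dvd_pull_invAut930 (s : AdelicAut K) {𝔫 : Ideal (𝓞 K)}
    (hdvd : ∀ v : HeightOneSpectrum (𝓞 K), (finPull930 s.σ v).asIdeal ∣ 𝔫 ↔ v.asIdeal ∣ 𝔫)
    (v : HeightOneSpectrum (𝓞 K)) :
    (finPull930 (invAut930 s).σ v).asIdeal ∣ 𝔫 ↔ v.asIdeal ∣ 𝔫 := by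
  have h := hdvd (finPull930 (invAut930 s).σ v)
  have e : finPull930 s.σ (finPull930 (invAut930 s).σ v) = v := finPull930_symm s.σ v
  rw [e] at h
  exact h.symm

end Detect

/-! ## 2. The upstairs data (core form of helper29) -/

section Up

open Fermat.Agent.LT.T7.H29

variable {K' : Type} [Field K'] [NumberField K']
variable {ℓ : ℕ} {Φ : HeckeEigensystem K' ℂ} {U : UpData K'}

/-- The identity is supported at the bad places. -/
theorem up_isBad_one930 (U : UpData K') : U.IsBad 1 :=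
  ⟨fun w => trivAtInf_one930 w, fun v _ => trivAtFin_one930 v⟩

/-- `σ` is cyclic of degree `ℓ`. -/
theorem up_cyc930 (h : IsUpData ℓ Φ U) : IsCyclicOfDegree U.s ℓ U.k := by
  have h1 := h.cyc
  rw [h.deg] at h1
  exact h1

theorem up_orbit_img930 (h : IsUpData ℓ Φ U) (j : ℕ) (hj : j < ℓ) :
    ∃ j' < ℓ, finImg930 U.s (U.o j) = U.o j' :=
  orbit_img930 U.s U.o h.orbit_rel ℓ (up_cyc930 h).pow_eq j hj

theorem up_orbit_pull930 (h : IsUpData ℓ Φ U) (j : ℕ) (hj : j < ℓ) :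
    ∃ j' < ℓ, finPull930 U.s.σ (U.o j) = U.o j' :=
  orbit_pull930 U.s U.o h.orbit_rel ℓ (up_cyc930 h).pow_eq j hj

theorem up_orbit_periodic930 (h : IsUpData ℓ Φ U) (j : ℕ) : U.o (j + ℓ) = U.o j :=
  orbit_periodic930 U.s U.o h.orbit_rel ℓ (up_cyc930 h).pow_eq j

/-- **The set `S'` is `σ`-stable**, for ALL upstairs data (`S'` is the set of the prime divisors
of `𝔑 1`, whose level group is preserved by `σ`). -/
theorem up_mem_S'_pull930 (h : IsUpData ℓ Φ U) (w : HeightOneSpectrum (𝓞 K')) :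
    finPull930 U.s.σ w ∈ U.S' ↔ w ∈ U.S' := by
  rw [h.mem_S'_g 1 (up_isBad_one930 U), h.mem_S'_g 1 (up_isBad_one930 U)]
  exact dvd_pull_of_level930 U.s (h.aut 1 (up_isBad_one930 U)).level w

theorem up_mem_S'_img930 (h : IsUpData ℓ Φ U) (w : HeightOneSpectrum (𝓞 K')) :
    finImg930 U.s w ∈ U.S' ↔ w ∈ U.S' := by
  have h1 := up_mem_S'_pull930 h (finImg930 U.s w)
  have h2 : finPull930 U.s.σ (finImg930 U.s w) = w := finPull930_symm U.s.σ w
  rw [h2] at h1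
  exact h1.symm

/-- The set of the prime divisors of the base level is `σ`-stable, for ALL upstairs data. -/
theorem up_dvd_pull930 (h : IsUpData ℓ Φ U) (v : HeightOneSpectrum (𝓞 K')) :
    (finPull930 U.s.σ v).asIdeal ∣ U.𝔑₀ ↔ v.asIdeal ∣ U.𝔑₀ := by
  rw [← h.mem_S', ← h.mem_S']
  exact up_mem_S'_pull930 h v

/-- `σ` preserves the elements supported at the bad places, for ALL upstairs data. -/
theorem up_isBad_onG930 (h : IsUpData ℓ Φ U) {g : G K'} (hg : U.IsBad g) :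
    U.IsBad (U.s.onG g) := by
  refine ⟨fun w => ?_, fun v hv => ?_⟩
  · rw [trivAtInf_onG930]
    exact hg.1 _
  · rw [trivAtFin_onG930]
    refine hg.2 _ ?_
    rcases hv with hv | ⟨j, hj, rfl⟩
    · exact Or.inl (fun hm => hv ((up_mem_S'_pull930 h v).1 hm))
    · obtain ⟨j', hj', e⟩ := up_orbit_pull930 h j (h.deg ▸ hj)
      exact Or.inr ⟨j', h.deg.symm ▸ hj', e⟩

/-- **The class of `Φ` is `σ`-stable**, for ALL upstairs data. -/
theorem up_agreeOut_move930 (h : IsUpData ℓ Φ U) {C : EigData K'}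
    (hC : C.AgreeOut U.S' (eigOf Φ)) : (eigMove930 U.s C).AgreeOut U.S' (eigOf Φ) := by
  refine ⟨fun w hw => ?_, fun w d hd => hC.2 _ d hd⟩
  have hw' : finPull930 U.s.σ w ∉ U.S' := fun hm => hw ((up_mem_S'_pull930 h w).1 hm)
  have hc := h.const (finPull930 U.s.σ w) hw' w hw (placeRel_finPull_self930 U.s w)
  have h1 := hC.1 (finPull930 U.s.σ w) hw'
  exact ⟨h1.1.trans hc.1, h1.2.trans hc.2⟩

/-- `R(σ)` preserves the cusp functions of level `𝔑 g`, `g` bad. -/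
theorem up_isCuspFn_Rsig930 (h : IsUpData ℓ Φ U) {g : G K'} (hg : U.IsBad g)
    {ψ : G K' → ℂ} (hψ : IsCuspFn (U.𝔑 g) trivType U.R'.r ψ) :
    IsCuspFn (U.𝔑 g) trivType U.R'.r (Rsig U.s ψ) :=
  isCuspFn_Rsig930 (h.aut g hg) (trivType_invariant930 U.s) hψ

/-- `R(σ)` permutes the complete orthonormal sequences of cusp functions of level `𝔑 g`. -/
theorem up_isCuspONB_Rsig930 (h : IsUpData ℓ Φ U) {g : G K'} (hg : U.IsBad g)
    {e : ℕ → G K' → ℂ} (he : IsCuspONB (U.𝔑 g) trivType U.R'.r U.R'.μ U.R'.F e) :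
    IsCuspONB (U.𝔑 g) trivType U.R'.r U.R'.μ U.R'.F (fun i => Rsig U.s (e i)) :=
  isCuspONB_Rsig930 h.frame'.frame (h.aut g hg) (trivType_invariant930 U.s) he

variable (hB : AutPreserves U.s U.𝔑₀ U.R'.μ U.R'.r)

include hB

/-- **`R(σ)` preserves the invariant cusp functions of the base level** (`hB` = `BaseStableU`). -/
theorem up_isWFn_Rsig930 (h : IsUpData ℓ Φ U) {ψ : G K' → ℂ}
    (hψ : IsWFn U.𝔑₀ U.R'.r ℓ U.o ψ) : IsWFn U.𝔑₀ U.R'.r ℓ U.o (Rsig U.s ψ) :=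
  isWFn_Rsig930 hB ℓ U.o (up_orbit_img930 h) (up_orbit_pull930 h) hψ

/-- **`R(σ)⁻¹` preserves the invariant cusp functions of the base level.** -/
theorem up_isWFn_RsigInv930 (h : IsUpData ℓ Φ U) {ψ : G K' → ℂ}
    (hψ : IsWFn U.𝔑₀ U.R'.r ℓ U.o ψ) : IsWFn U.𝔑₀ U.R'.r ℓ U.o (Rsig (invAut930 U.s) ψ) :=
  isWFn_RsigInv930 hB ℓ U.o (up_orbit_img930 h) (up_orbit_pull930 h) hψ

/-- **`R(σ)` moves the eigen-data of the eigenfunctions of the base level.** -/
theorem up_isEigFn_Rsig930 (h : IsUpData ℓ Φ U) {ψ : G K' → ℂ} {C : EigData K'}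
    (hψ : IsEigFn U.𝔑₀ U.R'.r ℓ U.o ψ C) :
    IsEigFn U.𝔑₀ U.R'.r ℓ U.o (Rsig U.s ψ) (eigMove930 U.s C) :=
  isEigFn_Rsig_of_dvd930 (up_dvd_pull930 h) hB ℓ U.o (up_orbit_img930 h) (up_orbit_pull930 h)
    hψ

/-- **`R(σ)` is unitary on the invariant cusp functions of the base level.** -/
theorem up_innerD_Rsig930 (h : IsUpData ℓ Φ U) {ψ χ : G K' → ℂ}
    (hψ : IsWFn U.𝔑₀ U.R'.r ℓ U.o ψ) (hχ : IsWFn U.𝔑₀ U.R'.r ℓ U.o χ) :
    innerD U.R'.μ U.R'.F (Rsig U.s ψ) (Rsig U.s χ) = innerD U.R'.μ U.R'.F ψ χ :=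
  innerD_Rsig_cusp930 h.frame'.frame hB hψ.cusp hχ.cusp

/-- **`R(σ)` preserves the class space of `Φ` at the base level.** -/
theorem up_class_Rsig930 (h : IsUpData ℓ Φ U) {ψ : G K' → ℂ}
    (hψ : IsEigFn U.𝔑₀ U.R'.r ℓ U.o ψ (eigOf Φ)) :
    IsEigFn U.𝔑₀ U.R'.r ℓ U.o (Rsig U.s ψ) (eigOf Φ) := by
  have h1 := up_isEigFn_Rsig930 hB h hψ
  have h2 : (eigMove930 U.s (eigOf Φ)).AgreeOut U.S' (eigOf Φ) :=
    up_agreeOut_move930 h ⟨fun _ _ => ⟨rfl, rfl⟩, fun _ _ _ => rfl⟩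
  refine isEigFn_congr930 h1 (fun v hv => ?_) (fun w d hd => h2.2 w d hd)
  exact h2.1 v (fun hm => hv ((h.mem_S' v).1 hm))

/-- **(OP-up) after `R(σ)`.** -/
theorem up_op_up_Rsig930 (h : IsUpData ℓ Φ U) (g : G K') (X : List (Gen K')) (k : ℤ) (m : ℕ)
    (hg : U.IsBad g) (hX : ∀ x ∈ X, x.Out U.S') {ψ : G K' → ℂ} {C : EigData K'}
    (hψ : IsEigFn U.𝔑₀ U.R'.r ℓ U.o ψ C) (Hg H : Finset (G K')) (z : G K')
    (hHg : IsDblCosetSystem U.𝔑₀ g Hg) (hH : IsIwCosetSystem (U.o 0) H)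
    (hz : IsScalarUniformizerAt (U.o 0) z) (x : G K') :
    Rconv U.R'.μ (U.φ' g X k m) (Rsig U.s ψ) x
      = wordEv X (eigMove930 U.s C) * U.c g (eigMove930 U.s C)
        * cosetOp Hg (shiftOp z k ((iwOp (U.o 0) H)^[m] (Rsig U.s ψ))) x :=
  h.op_up g X k m hg hX (Rsig U.s ψ) (eigMove930 U.s C) (up_isEigFn_Rsig930 hB h hψ) Hg H z
    hHg hH hz x

/-- **The diagonal coefficient** of an eigenfunction of the base level:
`⟨R(φ' g X k m) R(σ) ψ, ψ⟩ = X(σC) · c_g(σC) · ⟨[U g U] Z^k 𝒰^m R(σ) ψ, ψ⟩`. -/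
theorem up_diagCoeff930 (h : IsUpData ℓ Φ U) (g : G K') (X : List (Gen K')) (k : ℤ) (m : ℕ)
    (hg : U.IsBad g) (hX : ∀ x ∈ X, x.Out U.S') {ψ : G K' → ℂ} {C : EigData K'}
    (hψ : IsEigFn U.𝔑₀ U.R'.r ℓ U.o ψ C) (Hg H : Finset (G K')) (z : G K')
    (hHg : IsDblCosetSystem U.𝔑₀ g Hg) (hH : IsIwCosetSystem (U.o 0) H)
    (hz : IsScalarUniformizerAt (U.o 0) z) :
    diagCoeff U.s U.R'.μ U.R'.F (U.φ' g X k m) ψ
      = wordEv X (eigMove930 U.s C) * U.c g (eigMove930 U.s C)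
        * innerD U.R'.μ U.R'.F
            (cosetOp Hg (shiftOp z k ((iwOp (U.o 0) H)^[m] (Rsig U.s ψ)))) ψ := by
  show (∫ x in U.R'.F, Rconv U.R'.μ (U.φ' g X k m) (Rsig U.s ψ) x * conj (ψ x) ∂U.R'.μ)
    = wordEv X (eigMove930 U.s C) * U.c g (eigMove930 U.s C)
      * ∫ x in U.R'.F, cosetOp Hg (shiftOp z k ((iwOp (U.o 0) H)^[m] (Rsig U.s ψ))) x
          * conj (ψ x) ∂U.R'.μ
  rw [← MeasureTheory.integral_const_mul]
  refine MeasureTheory.integral_congr_ae (Filter.Eventually.of_forall fun x => ?_)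
  show Rconv U.R'.μ (U.φ' g X k m) (Rsig U.s ψ) x * conj (ψ x) = _
  rw [up_op_up_Rsig930 hB h g X k m hg hX hψ Hg H z hHg hH hz x]
  ring

/-- **`R(σ)` preserves the orthogonal complement of the invariant cusp functions.** -/
theorem up_orth_Rsig930 (h : IsUpData ℓ Φ U) {g : G K'}
    {ψ : G K' → ℂ} (hψ : IsCuspFn (U.𝔑 g) trivType U.R'.r ψ)
    (horth : ∀ χ : G K' → ℂ, IsWFn U.𝔑₀ U.R'.r ℓ U.o χ → innerD U.R'.μ U.R'.F ψ χ = 0)
    (χ : G K' → ℂ) (hχ : IsWFn U.𝔑₀ U.R'.r ℓ U.o χ) :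
    innerD U.R'.μ U.R'.F (Rsig U.s ψ) χ = 0 := by
  have hχ' := up_isWFn_RsigInv930 hB h hχ
  have h1 := innerD_Rsig930 h.frame'.frame hB hψ.cont hχ'.cusp.cont hψ.aut.left_inv
    hχ'.cusp.aut.left_inv
  rw [Rsig_Rsig_invAut930] at h1
  rw [h1]
  exact horth _ hχ'

/-- **The vanishing of the diagonal coefficients outside the invariant part**: the diagonal
coefficient of a cusp function of level `𝔑 g` orthogonal to the invariant cusp functions of the
base level vanishes (`kill_up`). -/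
theorem up_zero_out930 (h : IsUpData ℓ Φ U) {g : G K'} (hg : U.IsBad g) (X : List (Gen K'))
    (k : ℤ) (m : ℕ) (hX : ∀ x ∈ X, x.Out U.S') {ψ : G K' → ℂ}
    (hψ : IsCuspFn (U.𝔑 g) trivType U.R'.r ψ)
    (horth : ∀ χ : G K' → ℂ, IsWFn U.𝔑₀ U.R'.r ℓ U.o χ → innerD U.R'.μ U.R'.F ψ χ = 0) :
    diagCoeff U.s U.R'.μ U.R'.F (U.φ' g X k m) ψ = 0 := by
  have hk := h.kill_up g X k m hg hX (Rsig U.s ψ) (up_isCuspFn_Rsig930 h hg hψ)
    (up_orth_Rsig930 hB h hψ horth)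
  show (∫ x in U.R'.F, Rconv U.R'.μ (U.φ' g X k m) (Rsig U.s ψ) x * conj (ψ x) ∂U.R'.μ) = 0
  have h0 : (fun x => Rconv U.R'.μ (U.φ' g X k m) (Rsig U.s ψ) x * conj (ψ x))
      = fun _ => (0 : ℂ) := by
    funext x
    rw [hk x, zero_mul]
  rw [h0, MeasureTheory.integral_zero]

/-- The systems of representatives moved by `σ`. -/
theorem up_systems_onG930 (h : IsUpData ℓ Φ U) {g : G K'} {Hg H : Finset (G K')} {z : G K'}
    (hHg : IsDblCosetSystem U.𝔑₀ g Hg) (hH : IsIwCosetSystem (U.o 0) H)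
    (hz : IsScalarUniformizerAt (U.o 0) z) :
    IsDblCosetSystem U.𝔑₀ (U.s.onG g) (imgSet930 U.s Hg) ∧
      IsIwCosetSystem (U.o 1) (imgSet930 U.s H) ∧
      IsScalarUniformizerAt (U.o 1) (U.s.onG z) := by
  have e := orbit_succ930 U.s U.o h.orbit_rel 0
  refine ⟨isDblCosetSystem_onG930 U.s hB.level g Hg hHg, ?_, ?_⟩
  · have := isIwCosetSystem_onG930 U.s (U.o 0) H hH
    rw [e] at this
    exact this
  · have := isScalarUniformizerAt_onG930 U.s (U.o 0) z hz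
    rw [e] at this
    exact this

omit hB in
/-- The class of `Φ` is stable under `σ⁻¹`, for ALL upstairs data. -/
theorem up_agreeOut_moveInv930 (h : IsUpData ℓ Φ U) {C : EigData K'}
    (hC : C.AgreeOut U.S' (eigOf Φ)) :
    (eigMove930 (invAut930 U.s) C).AgreeOut U.S' (eigOf Φ) := by
  refine ⟨fun w hw => ?_, fun w d hd => hC.2 _ d hd⟩
  have hw' : finImg930 U.s w ∉ U.S' := fun hm => hw ((up_mem_S'_img930 h w).1 hm)
  have hc := h.const w hw (finImg930 U.s w) hw' (placeRel_finPull930 U.s w)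
  have h1 := hC.1 (finImg930 U.s w) hw'
  exact ⟨h1.1.trans hc.1.symm, h1.2.trans hc.2.symm⟩

/-- **`R(σ)⁻¹` preserves the class space of `Φ` at the base level.** -/
theorem up_class_RsigInv930 (h : IsUpData ℓ Φ U) {ψ : G K' → ℂ}
    (hψ : IsEigFn U.𝔑₀ U.R'.r ℓ U.o ψ (eigOf Φ)) :
    IsEigFn U.𝔑₀ U.R'.r ℓ U.o (Rsig (invAut930 U.s) ψ) (eigOf Φ) := by
  have h1 : IsEigFn U.𝔑₀ U.R'.r ℓ U.o (Rsig (invAut930 U.s) ψ)
      (eigMove930 (invAut930 U.s) (eigOf Φ)) :=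
    isEigFn_Rsig_of_dvd930 (dvd_pull_invAut930 U.s (up_dvd_pull930 h))
      (autPreserves_invAut930 hB) ℓ U.o (up_orbit_pull930 h) (up_orbit_img930 h) hψ
  have h2 : (eigMove930 (invAut930 U.s) (eigOf Φ)).AgreeOut U.S' (eigOf Φ) :=
    up_agreeOut_moveInv930 h ⟨fun _ _ => ⟨rfl, rfl⟩, fun _ _ _ => rfl⟩
  refine isEigFn_congr930 h1 (fun v hv => ?_) (fun w d hd => h2.2 w d hd)
  exact h2.1 v (fun hm => hv ((h.mem_S' v).1 hm))

/-- **`R(σ)` maps an orthonormal basis of the class space of `Φ` to an orthonormal basis of the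
class space of `Φ`.** -/
theorem up_isClassBasisOn_Rsig930 (h : IsUpData ℓ Φ U) {q : ℕ → G K' → ℂ} {J : Finset ℕ}
    (hq : SU736.IsClassBasisOn U.𝔑₀ U.R' ℓ U.o (eigOf Φ) q J) :
    SU736.IsClassBasisOn U.𝔑₀ U.R' ℓ U.o (eigOf Φ) (fun j => Rsig U.s (q j)) J where
  eig j hj := up_class_Rsig930 hB h (hq.eig j hj)
  orth i hi j hj hij := by
    rw [up_innerD_Rsig930 hB h (hq.eig i hi).inv (hq.eig j hj).inv]
    exact hq.orth i hi j hj hij
  norm j hj := by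
    rw [up_innerD_Rsig930 hB h (hq.eig j hj).inv (hq.eig j hj).inv]
    exact hq.norm j hj
  span ψ hψ := by
    obtain ⟨a, ha⟩ := hq.span _ (up_class_RsigInv930 hB h hψ)
    refine ⟨a, fun x => ?_⟩
    have h1 := ha (U.s.onGinv x)
    have h2 : Rsig (invAut930 U.s) ψ (U.s.onGinv x) = ψ x := by
      show ψ (U.s.onG (U.s.onGinv x)) = ψ x
      rw [onG_onGinv930]
    rw [h2] at h1
    exact h1

end Up

end Fermat.Agent.LT.T7.H930
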