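import Mathlib
import Fermat.Agent.LT.T7.H930.RsigUp
import Fermat.Agent.LT.T7.H616.ClassModelSpec

/-!
# Row LT, asset T7.M5 (helper930): four leaves of the cut `ClassModelC` of helper616

OFF-MAIN.  ADDITIVE.  Statements: `T7/H616/ClassModelSpec.lean` (helper616@6a81e5a09, sha256
8568bae74116f37c), byte-identical copy; on `T7/H736/{SpecUp faf14765, NonVan 9144a159}.lean`
(helper736@c1525b2e3).  UNCONDITIONAL, VERBATIM:

* `stabSC930   : CM616.StabSC616 K K'`   (CM.04: `R(σ)`, `R(σ)⁻¹` preserve the class space);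
* `locCommC930 : CM616.LocCommC616 K K'` (CM.06: elements local at `o i ≠ o j` commute);
* `locMoveC930 : CM616.LocMoveC616 K K'` (CM.07: `σ⁻¹` moves `o (j+1)` to `o j`, `o 0` to
  `o (ℓ-1)`);
* `powC930     : CM616.PowC616 K K'`     (CM.08: `σ⁻ℓ = 1` on `GL₂(𝔸_{K'})`).

One-field lemmas: `commute_of_isLocalAtFin930`, `isLocalAtFin_onGinv930`, `orbit_injOn930`
(the places `o 0, …, o (l-1)` of an orbit are pairwise different).
-/

set_option autoImplicit false

open AutomorphicForm IsDedekindDomain NumberField MeasureTheory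
open scoped MatrixGroups ComplexConjugate

noncomputable section

namespace Fermat.Agent.LT.T7.H930

open Fermat.Agent.LT.H556 Fermat.Agent.LT.H556.A0 Fermat.Agent.LT.T1.H930
open Fermat.Agent.LT.T7 Fermat.Agent.LT.T5 Fermat.Agent.LT.T7.SU736 Fermat.Agent.LT.T7.CM616

attribute [local instance] Fermat.Agent.LT.T5.instMeasurableSpaceG

section OneField

variable {K : Type} [Field K] [NumberField K]

open Fermat.Agent.LT.H129 in
/-- Elements supported at two different finite places commute. -/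
theorem commute_of_isLocalAtFin930 {v v' : HeightOneSpectrum (𝓞 K)} (hvv' : v ≠ v') {h h' : G K}
    (hh : IsLocalAtFin v h) (hh' : IsLocalAtFin v' h') : h * h' = h' * h := by
  rw [isLocalAtFin_iff129] at hh hh'
  apply G_ext129
  · intro w
    rw [map_mul, map_mul, hh.1 w, hh'.1 w]
  · intro u
    rw [map_mul, map_mul]
    by_cases hu : u = v
    · have hu' : u ≠ v' := fun e => hvv' (hu.symm.trans e)
      rw [hh'.2 u hu', mul_one, one_mul]
    · rw [hh.2 u hu, mul_one, one_mul]

theorem isLocalAtFin_onGinv930 (s : AdelicAut K) (w : HeightOneSpectrum (𝓞 K)) (g : G K) :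
    IsLocalAtFin w (s.onGinv g) ↔ IsLocalAtFin (finImg930 s w) g := by
  rw [onGinv_eq_glAdeleEquiv930, isLocalAtFin_glAdeleEquiv930]

/-- The places of an orbit are pairwise different. -/
theorem orbit_injOn930 (s : AdelicAut K) (o : ℕ → HeightOneSpectrum (𝓞 K))
    (ho : ∀ j : ℕ, PlaceRel s (o j) (o (j + 1))) (l : ℕ)
    (hne : ∀ j : ℕ, 0 < j → j < l → o j ≠ o 0) :
    ∀ i j : ℕ, i < j → j < l → o i ≠ o j := by
  intro i
  induction i with
  | zero =>
    intro j hij hj e
    exact hne j hij hj e.symm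
  | succ i ih =>
    intro j hij hj e
    obtain ⟨m, rfl⟩ : ∃ m, j = m + 1 := ⟨j - 1, by omega⟩
    have h1 : finPull930 s.σ (o (i + 1)) = o i := orbit_pred930 s o ho i
    have h2 : finPull930 s.σ (o (m + 1)) = o m := orbit_pred930 s o ho m
    have e' : o i = o m := by rw [← h1, ← h2, e]
    exact ih m (by omega) (by omega) e'

end OneField

section Leaves

variable {K K' : Type} [Field K] [NumberField K] [Field K'] [NumberField K'] [Algebra K K']

/-- **LEAF CM.04 = STAB-S.** -/
theorem stabSC930 : StabSC616 K K' := by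
  intro ℓ Φ Dt hctx ψ hψ
  have hU := H29.isUpData_upOf hctx.data
  have hB : AutPreserves (H29.upOf Dt).s (H29.upOf Dt).𝔑₀ (H29.upOf Dt).R'.μ (H29.upOf Dt).R'.r :=
    hctx.stable
  exact ⟨up_class_Rsig930 hB hU hψ, up_class_RsigInv930 hB hU hψ⟩

/-- **LEAF CM.06 = LOC-COMM.** -/
theorem locCommC930 : LocCommC616 K K' := by
  intro ℓ Φ Dt hctx i hi j hj hij h h' hh hh'
  have hinj := orbit_injOn930 Dt.s Dt.o hctx.data.orbit_rel ℓ hctx.data.orbit_ne
  have hne : Dt.o i ≠ Dt.o j := by
    rcases Nat.lt_or_gt_of_ne hij with h1 | h1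
    · exact hinj i j h1 hj
    · exact fun e => hinj j i h1 hi e.symm
  exact commute_of_isLocalAtFin930 hne hh hh'

/-- **LEAF CM.07 = LOC-MOVE.** -/
theorem locMoveC930 : LocMoveC616 K K' := by
  intro ℓ Φ Dt hctx
  refine ⟨fun j _ h hh => ?_, fun h hh => ?_⟩
  · rw [isLocalAtFin_onGinv930, orbit_succ930 Dt.s Dt.o hctx.data.orbit_rel j]
    exact hh
  · rw [isLocalAtFin_onGinv930, orbit_succ930 Dt.s Dt.o hctx.data.orbit_rel (ℓ - 1)]
    have hpos : 0 < ℓ := hctx.cyc.prime.pos
    have e : ℓ - 1 + 1 = 0 + ℓ := by omega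
    rw [e, l2_orbit_periodic930 hctx.data 0]
    exact hh

/-- **LEAF CM.08 = POW.** -/
theorem powC930 : PowC616 K K' := by
  intro ℓ Φ Dt hctx x
  exact onGinv_iterate_eq930 Dt.s ℓ (l2_cyc930 hctx.data).pow_eq x

example : StabSC616 K K' := stabSC930
example : LocCommC616 K K' := locCommC930
example : LocMoveC616 K K' := locMoveC930
example : PowC616 K K' := powC930

end Leaves

end Fermat.Agent.LT.T7.H930
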